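import Fermat.Agent.S48.M.QF.ES

/-!
# S48 / M3 (generic part 6) : how to check `HasFG` and `GoodDia`

* `GU A F₀ x` : `x` is a unit for the Gauss valuation attached to `A` (`x = y₁ / y₂`, `yᵢ ∈ A((q)) ∩ F` with nonzero
  reductions).
* `HasFGD δ` : every `x ∈ F` is `r / s` with `r, s, δ r, δ s` having coefficients in finitely generated groups.

## KEY S48/M3-FG1 : `goodDia_of_GU`
Sub-lemma: for `0 ≠ r ∈ F` with `FGCoeff r`, `FGCoeff (δ r)` there are `c ≠ 0`, `x ∈ F` with `r = c x`, `IntRed A F₀ x ρ`, `ρ ≠ 0`,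
`IntRed A F₀ (δ x) s`, `s ≠ 0`.
Proof.  `KLAux.exists_scale_of_fg A r` : `r = c * coeffMap y`, `red y ≠ 0`; `x := ⟨coeffMap y, _⟩` (it is `c⁻¹ r ∈ F`).
`δ x = c⁻¹ δ r` (`δ` is `Kb`-linear) is `FGCoeff` (`FGCoeff.mul (fgCoeff_algebraMap _)`) and nonzero, so `δ x = c' * coeffMap z`,
`red z ≠ 0`.  `GU x` (`y₁ = y`, `y₂ = 1`), hence `GU (δ x)` : `δ x * Y₂ = Y₁`.  So `c' * (z Y₂) = Y₁` and
`c'⁻¹ * Y₁ = z Y₂` : `c', c'⁻¹ ∈ A` by `ES.Alg.mem_of_mul_eq`.  So `δ x = coeffMap (single 0 c' * z)` with reduction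
`red (single 0 c') * red z ≠ 0` (`ES.Alg.red_single`, `ES.Alg.coeffMap_subtype_single`; the residue of a unit is nonzero).
Then for `u ≠ 0`: `u s = r` (`HasFGD`), `r = c_r x₁`, `s = c_s x₂`: `u x₂ = (c_r / c_s) x₁`.

## KEY S48/M3-FG2 : `baseChange_eq_adjoin`, `hasFGD_of_gen`
`baseChange_eq_adjoin`: `≥` clear (`coeffEmb_mem_laurentBaseChange`, `IntermediateField.subset_adjoin`); `≤`:
`IntermediateField.adjoin_le_iff`, then for `z ∈ adjoin ℚ S` use `IntermediateField.adjoin_induction` (`coeffEmb` is a ring hom;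
`coeffEmb (algebraMap ℚ _ c) = algebraMap Kb _ (c : Kb)`).
`hasFGD_of_gen`: let `R = Algebra.adjoin Kb (coeffEmb Kb '' S)`.  (a) every `x ∈ F` is `r / s`, `r s ∈ R`
(`IntermediateField.mem_adjoin_iff_div`); (b) `r ∈ R → FGCoeff r` (`Algebra.adjoin_induction`, as in
`ES.Alg.KLAux.fgCoeff_of_mem_adjoin`; generators: coefficients in `span ℤ {1}`); (c) `r ∈ R → δ r ∈ R`
(`Algebra.adjoin_induction` for the property `∀ h : r ∈ laurentBaseChange Kb F₀, (δ ⟨r, h⟩ : LaurentSeries Kb) ∈ R`).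
-/

set_option autoImplicit false
set_option synthInstance.maxHeartbeats 400000
set_option linter.unusedSectionVars false

open HahnSeries ModularCurve AlgebraicCurve Fermat.Agent.S24 Fermat.Agent.S29 Fermat.Agent.S18
open Fermat.Agent.ES.Alg Fermat.Agent.ES.Alg.KLAux

noncomputable section

namespace Fermat.Agent.S48.QF

variable (A : ValuationSubring Kb) (F₀ : IntermediateField ℚ (LaurentSeries ℚ))

/-- units of the Gauss valuation -/
def GU (x : FB F₀) : Prop :=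
  ∃ y1 y2 : LaurentSeries A, MemF A F₀ y1 ∧ MemF A F₀ y2 ∧ red A y1 ≠ 0 ∧ red A y2 ≠ 0 ∧
    (x : LaurentSeries Kb) * coeffMap A.subtype y2 = coeffMap A.subtype y1

variable {A F₀}

/-- every element is a quotient `r / s` with `r, s, δ r, δ s` of finitely generated coefficients -/
def HasFGD (δ : FB F₀ ≃ₐ[Kb] FB F₀) : Prop :=
  ∀ x : FB F₀, ∃ r s : FB F₀, s ≠ 0 ∧ FGCoeff (r : LaurentSeries Kb) ∧
    FGCoeff (s : LaurentSeries Kb) ∧ FGCoeff ((δ r : FB F₀) : LaurentSeries Kb) ∧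
    FGCoeff ((δ s : FB F₀) : LaurentSeries Kb) ∧ x * s = r

theorem HasFGD.hasFG {δ : FB F₀ ≃ₐ[Kb] FB F₀} (h : HasFGD δ) : HasFG F₀ := fun x => by
  obtain ⟨r, s, hs, h1, h2, -, -, h3⟩ := h x
  exact ⟨r, s, hs, h1, h2, h3⟩

theorem fg1_aux (δ : FB F₀ ≃ₐ[Kb] FB F₀)
    (hGU : ∀ x : FB F₀, GU A F₀ x → GU A F₀ (δ x)) (r : FB F₀) (hr0 : r ≠ 0)
    (hr : FGCoeff (r : LaurentSeries Kb)) (hdr : FGCoeff ((δ r : FB F₀) : LaurentSeries Kb)) :
    ∃ (c : Kb) (x : FB F₀) (ρ s : LaurentSeries (kA A)), c ≠ 0 ∧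
      r = algebraMap Kb (FB F₀) c * x ∧ IntRed A F₀ x ρ ∧ ρ ≠ 0 ∧ IntRed A F₀ (δ x) s ∧ s ≠ 0 := by
  have hr0' : (r : LaurentSeries Kb) ≠ 0 := fun h0 => hr0 (Subtype.ext h0)
  obtain ⟨Λ, hΛ, h1⟩ := hr
  obtain ⟨c, y, hc, hy, e⟩ := exists_scale_of_fg A _ hr0' Λ hΛ h1
  have e1 : coeffMap A.subtype y = algebraMap Kb (LaurentSeries Kb) c⁻¹ * (r : LaurentSeries Kb) := by
    rw [e, ← mul_assoc, ← map_mul, inv_mul_cancel₀ hc, map_one, one_mul]
  have hmem : coeffMap A.subtype y ∈ laurentBaseChange Kb F₀ := by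
    rw [e1]
    exact mul_mem ((laurentBaseChange Kb F₀).algebraMap_mem _) r.2
  set x : FB F₀ := ⟨coeffMap A.subtype y, hmem⟩ with hxdef
  have hx : x = algebraMap Kb (FB F₀) c⁻¹ * r := Subtype.ext e1
  have hrx : r = algebraMap Kb (FB F₀) c * x := by
    rw [hx, ← mul_assoc, ← map_mul, mul_inv_cancel₀ hc, map_one, one_mul]
  have hx0 : x ≠ 0 := by
    rintro h0
    rw [h0, mul_zero] at hrx
    exact hr0 hrx
  have hδx : δ x = algebraMap Kb (FB F₀) c⁻¹ * δ r := by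
    rw [hx, map_mul, AlgEquiv.commutes]
  have hδx0 : δ x ≠ 0 := by
    rw [Ne, map_eq_zero_iff δ δ.injective]
    exact hx0
  have hδx0' : ((δ x : FB F₀) : LaurentSeries Kb) ≠ 0 := fun h0 => hδx0 (Subtype.ext h0)
  have hfg : FGCoeff ((δ x : FB F₀) : LaurentSeries Kb) := by
    rw [hδx]
    exact (fgCoeff_algebraMap c⁻¹).mul hdr
  obtain ⟨Λ', hΛ', h1'⟩ := hfg
  obtain ⟨c', z, hc', hz, e'⟩ := exists_scale_of_fg A _ hδx0' Λ' hΛ' h1'
  have hGx : GU A F₀ x := by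
    refine ⟨y, 1, hmem, ?_, hy, ?_, ?_⟩
    · show coeffMap A.subtype 1 ∈ _
      rw [map_one]; exact one_mem _
    · rw [map_one]; exact one_ne_zero
    · rw [map_one, mul_one]
  obtain ⟨Y1, Y2, -, -, hY1, hY2, e2⟩ := hGU x hGx
  have key : algebraMap Kb (LaurentSeries Kb) c' * coeffMap A.subtype (z * Y2)
      = coeffMap A.subtype Y1 := by
    rw [map_mul, ← mul_assoc, ← e', e2]
  have hU : red A (z * Y2) ≠ 0 := by
    rw [map_mul]; exact mul_ne_zero hz hY2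
  have hcA : c' ∈ A := mem_of_mul_eq hU key
  have hcA' : c'⁻¹ ∈ A := by
    refine mem_of_mul_eq hY1 (V := z * Y2) ?_
    rw [← key, ← mul_assoc, ← map_mul, inv_mul_cancel₀ hc', map_one, one_mul]
  have hres : IsLocalRing.residue A ⟨c', hcA⟩ ≠ 0 := by
    intro h0
    have h2 : (⟨c', hcA⟩ : A) * ⟨c'⁻¹, hcA'⟩ = 1 := Subtype.ext (mul_inv_cancel₀ hc')
    have h3 := congrArg (IsLocalRing.residue A) h2
    rw [map_mul, h0, zero_mul, map_one] at h3
    exact zero_ne_one h3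
  refine ⟨c, x, red A y, red A (HahnSeries.single 0 (⟨c', hcA⟩ : A) * z), hc, hrx, ⟨y, rfl, rfl⟩, hy,
    ⟨_, ?_, rfl⟩, ?_⟩
  · rw [map_mul, coeffMap_subtype_single, e']
  · rw [map_mul, red_single]
    refine mul_ne_zero ?_ hz
    rw [Ne, map_eq_zero]
    exact hres

/-- KEY S48/M3-FG1 -/
theorem goodDia_of_GU (δ : FB F₀ ≃ₐ[Kb] FB F₀) (hFG : HasFGD δ)
    (hGU : ∀ x : FB F₀, GU A F₀ x → GU A F₀ (δ x)) : GoodDia A δ := by
  intro u hu
  obtain ⟨r, s, hs, h1, h2, h3, h4, h5⟩ := hFG u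
  have hr : r ≠ 0 := by
    rw [← h5]; exact mul_ne_zero hu hs
  obtain ⟨cr, x1, r1, s1, hcr, er, i1, hr1, j1, hs1⟩ := fg1_aux δ hGU r hr h1 h3
  obtain ⟨cs, x2, r2, s2, hcs, es, i2, hr2, j2, hs2⟩ := fg1_aux δ hGU s hs h2 h4
  refine ⟨cr / cs, x1, x2, r1, r2, s1, s2, div_ne_zero hcr hcs, i1, i2, j1, j2, hr1, hr2, hs1, hs2, ?_⟩
  have h6 : algebraMap Kb (FB F₀) cs ≠ 0 := by
    rw [Ne, map_eq_zero]; exact hcs
  apply mul_left_cancel₀ h6
  calc algebraMap Kb (FB F₀) cs * (u * x2) = u * s := by rw [es]; ring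
    _ = algebraMap Kb (FB F₀) cr * x1 := by rw [h5, er]
    _ = algebraMap Kb (FB F₀) cs * (algebraMap Kb (FB F₀) (cr / cs) * x1) := by
      rw [← mul_assoc, ← map_mul, mul_div_cancel₀ _ hcs]

/-- KEY S48/M3-FG2 -/
theorem baseChange_eq_adjoin (S : Set (LaurentSeries ℚ)) (hS : F₀ = IntermediateField.adjoin ℚ S) :
    laurentBaseChange Kb F₀ = IntermediateField.adjoin Kb (⇑(coeffEmb Kb) '' S) := by
  apply le_antisymm
  · rw [laurentBaseChange, IntermediateField.adjoin_le_iff]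
    rintro _ ⟨z, hz, rfl⟩
    have hz' : z ∈ IntermediateField.adjoin ℚ S := by rw [← hS]; exact hz
    clear hz
    show coeffEmb Kb z ∈ IntermediateField.adjoin Kb (⇑(coeffEmb Kb) '' S)
    induction hz' using IntermediateField.adjoin_induction with
    | mem x hx => exact IntermediateField.subset_adjoin Kb _ ⟨x, hx, rfl⟩
    | algebraMap c =>
      have : coeffEmb Kb (algebraMap ℚ (LaurentSeries ℚ) c)
          = algebraMap Kb (LaurentSeries Kb) (algebraMap ℚ Kb c) := by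
        rw [algebraMap_laurentSeries_eq_single, algebraMap_laurentSeries_eq_single, coeffEmb,
          coeffMap_single]
      rw [this]
      exact IntermediateField.algebraMap_mem _ _
    | add x y _ _ hx hy => rw [map_add]; exact add_mem hx hy
    | inv x _ hx => rw [map_inv₀]; exact inv_mem hx
    | mul x y _ _ hx hy => rw [map_mul]; exact mul_mem hx hy
  · apply IntermediateField.adjoin.mono
    apply Set.image_mono
    rw [hS]
    exact IntermediateField.subset_adjoin ℚ S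

theorem fg2_fgCoeff (S : Set (LaurentSeries ℚ)) (hint : ∀ s ∈ S, ∀ n, ∃ k : ℤ, s.coeff n = k)
    (r : LaurentSeries Kb) (hr : r ∈ Algebra.adjoin Kb (⇑(coeffEmb Kb) '' S)) : FGCoeff r := by
  induction hr using Algebra.adjoin_induction with
  | mem x hx =>
    obtain ⟨s, hs, rfl⟩ := hx
    refine ⟨Submodule.span ℤ {1}, Submodule.fg_span_singleton 1, fun n => ?_⟩
    obtain ⟨k, hk⟩ := hint s hs n
    rw [coeffEmb_coeff, hk, Submodule.mem_span_singleton]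
    exact ⟨k, by simp⟩
  | algebraMap c => exact fgCoeff_algebraMap c
  | add x y _ _ hx hy => exact hx.add hy
  | mul x y _ _ hx hy => exact hx.mul hy

theorem fg2_stable (S : Set (LaurentSeries ℚ)) (hS : F₀ = IntermediateField.adjoin ℚ S)
    (δ : FB F₀ ≃ₐ[Kb] FB F₀)
    (hδ : ∀ x : FB F₀, (x : LaurentSeries Kb) ∈ ⇑(coeffEmb Kb) '' S →
      ((δ x : FB F₀) : LaurentSeries Kb) ∈ ⇑(coeffEmb Kb) '' S)
    (r : LaurentSeries Kb) (hr : r ∈ Algebra.adjoin Kb (⇑(coeffEmb Kb) '' S)) :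
    ∀ h : r ∈ laurentBaseChange Kb F₀,
      ((δ ⟨r, h⟩ : FB F₀) : LaurentSeries Kb) ∈ Algebra.adjoin Kb (⇑(coeffEmb Kb) '' S) := by
  have hle : ∀ t ∈ Algebra.adjoin Kb (⇑(coeffEmb Kb) '' S), t ∈ laurentBaseChange Kb F₀ := by
    intro t ht
    rw [baseChange_eq_adjoin S hS]
    exact IntermediateField.algebra_adjoin_le_adjoin Kb _ ht
  induction hr using Algebra.adjoin_induction with
  | mem x hx =>
    intro h
    exact Algebra.subset_adjoin (hδ ⟨x, h⟩ hx)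
  | algebraMap c =>
    intro h
    have : (⟨algebraMap Kb (LaurentSeries Kb) c, h⟩ : FB F₀) = algebraMap Kb (FB F₀) c := rfl
    rw [this, AlgEquiv.commutes]
    exact Subalgebra.algebraMap_mem _ c
  | add x y hx hy ihx ihy =>
    intro h
    have : (⟨x + y, h⟩ : FB F₀) = ⟨x, hle x hx⟩ + ⟨y, hle y hy⟩ := rfl
    rw [this, map_add]
    exact add_mem (ihx _) (ihy _)
  | mul x y hx hy ihx ihy =>
    intro h
    have : (⟨x * y, h⟩ : FB F₀) = ⟨x, hle x hx⟩ * ⟨y, hle y hy⟩ := rfl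
    rw [this, map_mul]
    exact mul_mem (ihx _) (ihy _)

/-- KEY S48/M3-FG2 -/
theorem hasFGD_of_gen (S : Set (LaurentSeries ℚ)) (hS : F₀ = IntermediateField.adjoin ℚ S)
    (hint : ∀ s ∈ S, ∀ n, ∃ k : ℤ, s.coeff n = k) (δ : FB F₀ ≃ₐ[Kb] FB F₀)
    (hδ : ∀ x : FB F₀, (x : LaurentSeries Kb) ∈ ⇑(coeffEmb Kb) '' S →
      ((δ x : FB F₀) : LaurentSeries Kb) ∈ ⇑(coeffEmb Kb) '' S) : HasFGD δ := by
  have hle : ∀ t ∈ Algebra.adjoin Kb (⇑(coeffEmb Kb) '' S), t ∈ laurentBaseChange Kb F₀ := by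
    intro t ht
    rw [baseChange_eq_adjoin S hS]
    exact IntermediateField.algebra_adjoin_le_adjoin Kb _ ht
  intro x
  have hx : (x : LaurentSeries Kb) ∈ IntermediateField.adjoin Kb (⇑(coeffEmb Kb) '' S) := by
    rw [← baseChange_eq_adjoin S hS]; exact x.2
  obtain ⟨r, hr, s, hs, e⟩ := IntermediateField.mem_adjoin_iff_div.mp hx
  by_cases hs0 : s = 0
  · have hx0 : x = 0 := Subtype.ext (by rw [e, hs0, div_zero]; rfl)
    refine ⟨0, 1, one_ne_zero, ?_, ?_, ?_, ?_, by rw [hx0, zero_mul]⟩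
    · have := fgCoeff_algebraMap 0
      rwa [map_zero] at this
    · have := fgCoeff_algebraMap 1
      rwa [map_one] at this
    · rw [map_zero]
      have := fgCoeff_algebraMap 0
      rwa [map_zero] at this
    · rw [map_one]
      have := fgCoeff_algebraMap 1
      rwa [map_one] at this
  · refine ⟨⟨r, hle r hr⟩, ⟨s, hle s hs⟩, fun h0 => hs0 (congrArg Subtype.val h0),
      fg2_fgCoeff S hint r hr, fg2_fgCoeff S hint s hs,
      fg2_fgCoeff S hint _ (fg2_stable S hS δ hδ r hr _),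
      fg2_fgCoeff S hint _ (fg2_stable S hS δ hδ s hs _), Subtype.ext ?_⟩
    show (x : LaurentSeries Kb) * s = r
    rw [e, div_mul_cancel₀ _ hs0]

end Fermat.Agent.S48.QF
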