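import Fermat.Agent.S48.M.QF.KL
import Fermat.Agent.ES.AlgGal

/-!
# S48 / M3 (generic part 2) : the Galois action on `FB F₀`

`gal F₀ σ` = coefficientwise action (Prelude `arithmeticRingAut`), `PDiv.gal`, `exists_level`,
inclusions `incl h : FB F₀ →ₐ[Kb] FB E₀` (`F₀ ≤ E₀`) and `q ↦ q ^ p` : `vmap p h : FB F₀ →ₐ[Kb] FB E₀`.
-/

set_option autoImplicit false
set_option synthInstance.maxHeartbeats 400000
set_option linter.unusedSectionVars false

open HahnSeries ModularCurve AlgebraicCurve Fermat.Agent.S24 Fermat.Agent.S29 Fermat.Agent.S18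
open Fermat.Agent.ES.Alg

noncomputable section

namespace Fermat.Agent.S48.QF

variable (F₀ : IntermediateField ℚ (LaurentSeries ℚ))

/-- the Galois action on `FB F₀` -/
abbrev gal (σ : GQ) : FB F₀ ≃+* FB F₀ := arithmeticRingAut F₀ σ

variable {F₀}

theorem coe_gal (σ : GQ) (u : FB F₀) :
    (gal F₀ σ u : LaurentSeries Kb) = coeffMap (σ : Kb →+* Kb) (u : LaurentSeries Kb) := rfl

theorem gal_algebraMap (σ : GQ) (c : Kb) :
    gal F₀ σ (algebraMap Kb (FB F₀) c) = algebraMap Kb (FB F₀) (σ c) :=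
  arithmeticRingAut_algebraMap _ σ c

theorem gal_one (u : FB F₀) : gal F₀ 1 u = u := by
  apply Subtype.ext
  rw [coe_gal]
  ext n
  rw [coeffMap_coeff]
  rfl

theorem gal_mul (σ τ : GQ) (u : FB F₀) : gal F₀ (σ * τ) u = gal F₀ σ (gal F₀ τ u) := by
  apply Subtype.ext
  rw [coe_gal, coe_gal, coe_gal]
  ext n
  rw [coeffMap_coeff, coeffMap_coeff, coeffMap_coeff]
  rfl

theorem gal_gal_inv (σ : GQ) (u : FB F₀) : gal F₀ σ (gal F₀ σ⁻¹ u) = u := by
  rw [← gal_mul, mul_inv_cancel, gal_one]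

theorem gal_inv_gal (σ : GQ) (u : FB F₀) : gal F₀ σ⁻¹ (gal F₀ σ u) = u := by
  rw [← gal_mul, inv_mul_cancel, gal_one]

theorem PDiv.gal {m : ℕ} {u : FB F₀} (hu : PDiv Kb (FB F₀) m u) (σ : GQ) :
    PDiv Kb (FB F₀) m (gal F₀ σ u) := by
  refine ⟨by simpa using hu.1, fun v => ?_⟩
  set g := arithmeticGalois (L := Kb) F₀ σ with hg
  have h := SemilinearAut.ord_smul g (g⁻¹ • v) u
  rw [smul_inv_smul] at h
  have h2 : g • u = Fermat.Agent.S48.QF.gal F₀ σ u := rfl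
  rw [← h2, h]
  exact hu.2 _

theorem exists_level (u : FB F₀) : ∃ L : IntermediateField ℚ Qb, FiniteDimensional ℚ L ∧
    ∀ σ : GQ, (∀ x ∈ L, σ x = x) → gal F₀ σ u = u := by
  obtain ⟨u, hu⟩ := u
  suffices h : ∃ L : IntermediateField ℚ Qb, FiniteDimensional ℚ L ∧
      ∀ σ : GQ, (∀ x ∈ L, σ x = x) → coeffMap (σ : Qb →+* Qb) u = u by
    obtain ⟨L, hL, h⟩ := h
    exact ⟨L, hL, fun σ hσ => Subtype.ext (h σ hσ)⟩
  rw [mem_laurentBaseChange_iff] at hu
  induction hu using Subfield.closure_induction with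
  | mem y hy =>
      rcases hy with ⟨a, rfl⟩ | ⟨z, hz, rfl⟩
      · refine ⟨IntermediateField.adjoin ℚ {a}, ?_, fun σ hσ => ?_⟩
        · exact IntermediateField.adjoin.finiteDimensional
            ((AlgebraicClosure.isAlgebraic ℚ).isAlgebraic a).isIntegral
        · rw [coeffMap_algebraMap]
          congr 1
          exact hσ a (IntermediateField.mem_adjoin_simple_self ℚ a)
      · exact ⟨⊥, inferInstance, fun σ _ => coeffMap_coeffEmb σ z⟩
  | one => exact ⟨⊥, inferInstance, fun σ _ => map_one _⟩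
  | add x y _ _ hx hy =>
      obtain ⟨L₁, h1, h1'⟩ := hx
      obtain ⟨L₂, h2, h2'⟩ := hy
      exact ⟨L₁ ⊔ L₂, IntermediateField.finiteDimensional_sup L₁ L₂, fun σ hσ => by
        rw [map_add, h1' σ fun x hx => hσ x ((le_sup_left : L₁ ≤ L₁ ⊔ L₂) hx),
          h2' σ fun x hx => hσ x ((le_sup_right : L₂ ≤ L₁ ⊔ L₂) hx)]⟩
  | neg x _ hx =>
      obtain ⟨L₁, h1, h1'⟩ := hx
      exact ⟨L₁, h1, fun σ hσ => by rw [map_neg, h1' σ hσ]⟩
  | inv x _ hx =>
      obtain ⟨L₁, h1, h1'⟩ := hx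
      exact ⟨L₁, h1, fun σ hσ => by rw [map_inv₀, h1' σ hσ]⟩
  | mul x y _ _ hx hy =>
      obtain ⟨L₁, h1, h1'⟩ := hx
      obtain ⟨L₂, h2, h2'⟩ := hy
      exact ⟨L₁ ⊔ L₂, IntermediateField.finiteDimensional_sup L₁ L₂, fun σ hσ => by
        rw [map_mul, h1' σ fun x hx => hσ x ((le_sup_left : L₁ ≤ L₁ ⊔ L₂) hx),
          h2' σ fun x hx => hσ x ((le_sup_right : L₂ ≤ L₁ ⊔ L₂) hx)]⟩

/-! ### inclusions and `q ↦ q ^ p` -/

variable {E₀ : IntermediateField ℚ (LaurentSeries ℚ)}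

theorem baseChange_mono (h : F₀ ≤ E₀) : laurentBaseChange Kb F₀ ≤ laurentBaseChange Kb E₀ := by
  rw [laurentBaseChange, IntermediateField.adjoin_le_iff]
  rintro _ ⟨y, hy, rfl⟩
  exact coeffEmb_mem_laurentBaseChange Kb (h hy)

theorem qExpand_mem_baseChange (n : ℕ) [NeZero n] (hF : ∀ y ∈ F₀, qExpand ℚ n y ∈ E₀)
    {x : LaurentSeries Kb} (hx : x ∈ laurentBaseChange Kb F₀) :
    qExpand Kb n x ∈ laurentBaseChange Kb E₀ := by
  rw [mem_laurentBaseChange_iff] at hx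
  induction hx using Subfield.closure_induction with
  | mem y hy =>
      rcases hy with ⟨a, rfl⟩ | ⟨z, hz, rfl⟩
      · rw [algebraMap_laurentSeries_eq_single, qExpand_single, mul_zero,
          ← algebraMap_laurentSeries_eq_single]
        exact (laurentBaseChange Kb E₀).algebraMap_mem _
      · rw [coeffEmb, ← coeffMap_qExpand]
        exact coeffEmb_mem_laurentBaseChange Kb (hF z hz)
  | one => simp
  | add x y _ _ hx hy => simpa using add_mem hx hy
  | neg x _ hx => simpa using neg_mem hx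
  | inv x _ hx => simpa using inv_mem hx
  | mul x y _ _ hx hy => simpa using mul_mem hx hy

/-- the inclusion -/
def incl (h : F₀ ≤ E₀) : FB F₀ →ₐ[Kb] FB E₀ := IntermediateField.inclusion (baseChange_mono h)

@[simp]
theorem coe_incl (h : F₀ ≤ E₀) (x : FB F₀) : (incl h x : LaurentSeries Kb) = x :=
  IntermediateField.coe_inclusion _ x

/-- `q ↦ q ^ n` -/
def vmap (n : ℕ) [NeZero n] (hF : ∀ y ∈ F₀, qExpand ℚ n y ∈ E₀) : FB F₀ →ₐ[Kb] FB E₀ where
  toFun x := ⟨qExpand Kb n (x : LaurentSeries Kb), qExpand_mem_baseChange n hF x.2⟩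
  map_one' := Subtype.ext (map_one (qExpand Kb n))
  map_mul' _ _ := Subtype.ext (map_mul (qExpand Kb n) _ _)
  map_zero' := Subtype.ext (map_zero (qExpand Kb n))
  map_add' _ _ := Subtype.ext (map_add (qExpand Kb n) _ _)
  commutes' a := Subtype.ext <| by
    show qExpand Kb n (algebraMap Kb (LaurentSeries Kb) a) = algebraMap Kb (LaurentSeries Kb) a
    rw [algebraMap_laurentSeries_eq_single, qExpand_single, mul_zero]

@[simp]
theorem coe_vmap (n : ℕ) [NeZero n] (hF : ∀ y ∈ F₀, qExpand ℚ n y ∈ E₀) (x : FB F₀) :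
    (vmap n hF x : LaurentSeries Kb) = qExpand Kb n (x : LaurentSeries Kb) := rfl

theorem gal_incl (h : F₀ ≤ E₀) (σ : GQ) (u : FB F₀) :
    gal E₀ σ (incl h u) = incl h (gal F₀ σ u) := by
  apply Subtype.ext
  rw [coe_gal, coe_incl, coe_incl, coe_gal]

theorem gal_vmap (n : ℕ) [NeZero n] (hF : ∀ y ∈ F₀, qExpand ℚ n y ∈ E₀) (σ : GQ) (u : FB F₀) :
    gal E₀ σ (vmap n hF u) = vmap n hF (gal F₀ σ u) := by
  apply Subtype.ext
  rw [coe_gal, coe_vmap, coe_vmap, coe_gal, coeffMap_qExpand]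

end Fermat.Agent.S48.QF
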