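import Fermat.Agent.S48.M.QF.ES

/-!
# S48 / M3 (generic part 5) : the Kummer module `Wm F₀ m`, Galois action, Hecke and diamond operators,
the Eichler–Shimura relation with nebentypus

`Um F₀ m = {u ∈ Fˣ : m ∣ ord_v u for all v}`, `Wm F₀ m = Um / (Fˣ)^m` (written additively),
`cls : Um → Wm`, `act : G_ℚ →* End Wm`; for `D : HData F₀ E₀ ℓ`: `TW D m`, `DW D m : End Wm`.

* `T_eq` : `TW = act τ * DW + ℓ act τ⁻¹` for a Frobenius lift `τ` at `A ∣ ℓ`, `ℓ ∤ m`, given `KLS F₀ ℓ A`, `GoodDia A D.dia`;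
* `ES1` : `act τ * act τ * DW - TW * act τ + ℓ = 0`;
* `ES2` : inertia acts trivially;
* `act_comm_T`, `act_comm_D`, `DW_mul_DWinv`, `exists_level_cls`, `smul_eq_zero'`.
-/

set_option autoImplicit false
set_option synthInstance.maxHeartbeats 400000
set_option linter.unusedSectionVars false

open HahnSeries ModularCurve AlgebraicCurve Fermat.Agent.S24 Fermat.Agent.S29 Fermat.Agent.S18
open Fermat.Agent.ES.Alg

noncomputable section

namespace Fermat.Agent.S48.QF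

variable (F₀ : IntermediateField ℚ (LaurentSeries ℚ)) (m : ℕ)

/-- units whose divisor is divisible by `m` -/
def Um : Subgroup (FB F₀)ˣ where
  carrier := {u | ∀ v : Place Kb (FB F₀), (m : ℤ) ∣ v.ord (u : FB F₀)}
  one_mem' := fun v => by simp
  mul_mem' := fun {a b} ha hb v => by
    rw [Units.val_mul, v.ord_mul a.ne_zero b.ne_zero]
    exact dvd_add (ha v) (hb v)
  inv_mem' := fun {a} ha v => by
    rw [Units.val_inv_eq_inv_val, v.ord_inv]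
    exact (dvd_neg).mpr (ha v)

variable {F₀ m}

theorem mem_Um_iff {u : (FB F₀)ˣ} : u ∈ Um F₀ m ↔ PDiv Kb (FB F₀) m (u : FB F₀) :=
  ⟨fun h => ⟨u.ne_zero, h⟩, fun h => h.2⟩

variable (F₀ m)

/-- the `m`-th powers -/
def Pm : Subgroup (Um F₀ m) := ((powMonoidHom m : (FB F₀)ˣ →* (FB F₀)ˣ).range).subgroupOf (Um F₀ m)

/-- the Kummer module -/
def Wm : Type := Additive (Um F₀ m ⧸ Pm F₀ m)

instance : AddCommGroup (Wm F₀ m) := inferInstanceAs (AddCommGroup (Additive (Um F₀ m ⧸ Pm F₀ m)))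

variable {F₀ m}

/-- the class of a unit -/
def cls (u : Um F₀ m) : Wm F₀ m := Additive.ofMul (QuotientGroup.mk u)

theorem cls_surjective : Function.Surjective (cls (F₀ := F₀) (m := m)) := by
  intro w
  obtain ⟨u, hu⟩ := QuotientGroup.mk_surjective (Additive.toMul w : Um F₀ m ⧸ Pm F₀ m)
  exact ⟨u, by rw [cls, hu]; rfl⟩

theorem cls_mul (u u' : Um F₀ m) : cls (u * u') = cls u + cls u' := rfl

theorem cls_one : cls (1 : Um F₀ m) = 0 := rfl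

theorem cls_inv (u : Um F₀ m) : cls u⁻¹ = - cls u := rfl

theorem cls_pow (u : Um F₀ m) (n : ℕ) : cls (u ^ n) = n • cls u := rfl

theorem cls_eq_zero_iff (u : Um F₀ m) : cls u = 0 ↔ ∃ r : (FB F₀)ˣ, r ^ m = (u : (FB F₀)ˣ) := by
  have h1 : cls u = 0 ↔ (QuotientGroup.mk u : Um F₀ m ⧸ Pm F₀ m) = 1 := Iff.rfl
  rw [h1, QuotientGroup.eq_one_iff, Pm, Subgroup.mem_subgroupOf, MonoidHom.mem_range]
  rfl

theorem cls_eq_iff (u u' : Um F₀ m) :
    cls u = cls u' ↔ ∃ r : (FB F₀)ˣ, (u : (FB F₀)ˣ) = u' * r ^ m := by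
  have h1 : cls u = cls u' ↔ cls (u'⁻¹ * u) = 0 := by
    rw [cls_mul, cls_inv, neg_add_eq_zero, eq_comm]
  rw [h1, cls_eq_zero_iff]
  constructor
  · rintro ⟨r, hr⟩
    refine ⟨r, ?_⟩
    rw [hr]
    simp
  · rintro ⟨r, hr⟩
    refine ⟨r, ?_⟩
    simp [hr]

theorem smul_eq_zero' (w : Wm F₀ m) : m • w = 0 := by
  obtain ⟨u, rfl⟩ := cls_surjective w
  rw [← cls_pow, cls_eq_zero_iff]
  exact ⟨u, rfl⟩

/-! ### induced endomorphisms -/

/-- the endomorphism of `Um` induced by an endomorphism of `F_Nˣ` -/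
def resU (φ : (FB F₀)ˣ →* (FB F₀)ˣ) (hφ : ∀ u ∈ Um F₀ m, φ u ∈ Um F₀ m) : Um F₀ m →* Um F₀ m :=
  (φ.comp (Um F₀ m).subtype).codRestrict (Um F₀ m) (fun u => hφ u u.2)

/-- the endomorphism of `Wm` induced by an endomorphism of `F_Nˣ` -/
def ind (φ : (FB F₀)ˣ →* (FB F₀)ˣ) (hφ : ∀ u ∈ Um F₀ m, φ u ∈ Um F₀ m) : AddMonoid.End (Wm F₀ m) :=
  MonoidHom.toAdditive (QuotientGroup.map (Pm F₀ m) (Pm F₀ m) (resU φ hφ) (by
    rintro u hu
    rw [Pm, Subgroup.mem_subgroupOf, MonoidHom.mem_range] at hu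
    obtain ⟨r, hr⟩ := hu
    rw [Subgroup.mem_comap, Pm, Subgroup.mem_subgroupOf, MonoidHom.mem_range]
    refine ⟨φ r, ?_⟩
    show (φ r) ^ m = φ (u : (FB F₀)ˣ)
    rw [← map_pow]
    exact congrArg φ hr))

theorem ind_cls (φ : (FB F₀)ˣ →* (FB F₀)ˣ) (hφ : ∀ u ∈ Um F₀ m, φ u ∈ Um F₀ m) (u : Um F₀ m) :
    ind φ hφ (cls u) = cls ⟨φ u, hφ u u.2⟩ := rfl

theorem end_mul_apply (f g : AddMonoid.End (Wm F₀ m)) (w : Wm F₀ m) : (f * g) w = f (g w) := rfl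

theorem end_add_apply (f g : AddMonoid.End (Wm F₀ m)) (w : Wm F₀ m) : (f + g) w = f w + g w := rfl

theorem end_one_apply (w : Wm F₀ m) : (1 : AddMonoid.End (Wm F₀ m)) w = w := rfl

theorem end_ext {f g : AddMonoid.End (Wm F₀ m)} (h : ∀ u, f (cls u) = g (cls u)) : f = g := by
  ext w
  obtain ⟨u, rfl⟩ := cls_surjective w
  exact h u

/-! ### Galois action and Hecke operators -/

theorem gal_mem_Um (σ : GQ) (u : (FB F₀)ˣ) (hu : u ∈ Um F₀ m) :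
    Units.map ((gal F₀ σ : FB F₀ →+* FB F₀) : FB F₀ →* FB F₀) u ∈ Um F₀ m :=
  mem_Um_iff.mpr (PDiv.gal (mem_Um_iff.mp hu) σ)

variable (F₀ m)

/-- the Galois action on `Wm` -/
def act : GQ →* AddMonoid.End (Wm F₀ m) where
  toFun σ := ind _ (gal_mem_Um σ)
  map_one' := by
    apply end_ext
    intro u
    rw [ind_cls, end_one_apply]
    congr 1
  map_mul' σ τ := by
    apply end_ext
    intro u
    rw [end_mul_apply, ind_cls, ind_cls, ind_cls]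
    congr 1

variable {F₀ m}

/-- `σ u` as an element of `Um` -/
def galU (σ : GQ) : Um F₀ m →* Um F₀ m := resU _ (gal_mem_Um σ)

theorem act_cls (σ : GQ) (u : Um F₀ m) : act F₀ m σ (cls u) = cls (galU σ u) := rfl

theorem coe_galU (σ : GQ) (u : Um F₀ m) : (((galU σ u : Um F₀ m) : (FB F₀)ˣ) : FB F₀) =
    gal F₀ σ ((u : (FB F₀)ˣ) : FB F₀) := rfl

theorem exists_level_cls (w : Wm F₀ m) : ∃ L : IntermediateField ℚ Qb, FiniteDimensional ℚ L ∧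
    ∀ σ : GQ, (∀ x ∈ L, σ x = x) → act F₀ m σ w = w := by
  obtain ⟨u, rfl⟩ := cls_surjective w
  obtain ⟨L, hL, h⟩ := exists_level ((u : (FB F₀)ˣ) : FB F₀)
  refine ⟨L, hL, fun σ hσ => ?_⟩
  rw [act_cls]
  congr 1
  apply Subtype.ext
  apply Units.ext
  exact h σ hσ


/-- a unit of `Um` which is congruent to a constant is an `m`-th power -/
theorem cls_eq_zero_of_cong (hFG : HasFG F₀) {ℓ : ℕ} {A : ValuationSubring Kb} (hKL : KLS F₀ ℓ A)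
    (hm : ¬ ℓ ∣ m) (u : Um F₀ m) (c : Kb) (hc : c ≠ 0)
    (h : Cong A F₀ (algebraMap Kb (FB F₀) c * ((u : (FB F₀)ˣ) : FB F₀))) : cls u = 0 := by
  obtain ⟨g, hg⟩ := KL_general hFG hKL m hm _ (mem_Um_iff.mp u.2) c hc h
  have hm0 : m ≠ 0 := fun h0 => hm (h0 ▸ dvd_zero ℓ)
  have hg0 : g ≠ 0 := by
    rintro rfl
    rw [zero_pow hm0] at hg
    exact (u : (FB F₀)ˣ).ne_zero hg.symm
  rw [cls_eq_zero_iff]
  exact ⟨Units.mk0 g hg0, Units.ext hg⟩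

theorem ES2 (hFG : HasFG F₀) {ℓ : ℕ} (hm : ¬ ℓ ∣ m) {A : ValuationSubring Kb} (hKL : KLS F₀ ℓ A)
    {σ : GQ} (hσ : σ ∈ A.inertiaSubgroupIn ℚ) : act F₀ m σ = 1 := by
  apply end_ext
  intro u
  rw [end_one_apply, act_cls, ← sub_eq_zero, sub_eq_add_neg, ← cls_inv, ← cls_mul]
  obtain ⟨c, hc, h⟩ := cong_inertia hFG hσ ((u : (FB F₀)ˣ) : FB F₀) (u : (FB F₀)ˣ).ne_zero
  refine cls_eq_zero_of_cong hFG hKL hm _ c hc ?_
  convert h using 2
  push_cast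
  rfl

/-! ### Hecke and diamond operators -/

section Hecke

variable {E₀ : IntermediateField ℚ (LaurentSeries ℚ)} {ℓ : ℕ} [NeZero ℓ] (D : HData F₀ E₀ ℓ)

theorem T_mem_Um (u : (FB F₀)ˣ) (hu : u ∈ Um F₀ m) : Units.map D.T u ∈ Um F₀ m :=
  mem_Um_iff.mpr (D.PDiv_T (mem_Um_iff.mp hu))

theorem dia_mem_Um (u : (FB F₀)ˣ) (hu : u ∈ Um F₀ m) :
    Units.map ((D.dia : FB F₀ →+* FB F₀) : FB F₀ →* FB F₀) u ∈ Um F₀ m :=
  mem_Um_iff.mpr (D.PDiv_dia (mem_Um_iff.mp hu))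

theorem dia_symm_mem_Um (u : (FB F₀)ˣ) (hu : u ∈ Um F₀ m) :
    Units.map ((D.dia.symm : FB F₀ →+* FB F₀) : FB F₀ →* FB F₀) u ∈ Um F₀ m :=
  mem_Um_iff.mpr (D.PDiv_dia_symm (mem_Um_iff.mp hu))

/-- the Hecke operator on `Wm` -/
def TW (D : HData F₀ E₀ ℓ) (m : ℕ) : AddMonoid.End (Wm F₀ m) := ind _ (T_mem_Um D)

/-- the diamond operator on `Wm` -/
def DW (D : HData F₀ E₀ ℓ) (m : ℕ) : AddMonoid.End (Wm F₀ m) := ind _ (dia_mem_Um D)

/-- the inverse of the diamond operator on `Wm` -/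
def DWinv (D : HData F₀ E₀ ℓ) (m : ℕ) : AddMonoid.End (Wm F₀ m) := ind _ (dia_symm_mem_Um D)

/-- `T u` as an element of `Um` -/
def TU : Um F₀ m →* Um F₀ m := resU _ (T_mem_Um D)

/-- `dia u` as an element of `Um` -/
def DU : Um F₀ m →* Um F₀ m := resU _ (dia_mem_Um D)

/-- `dia⁻¹ u` as an element of `Um` -/
def DUinv : Um F₀ m →* Um F₀ m := resU _ (dia_symm_mem_Um D)

theorem TW_cls (u : Um F₀ m) : TW D m (cls u) = cls (TU D u) := rfl

theorem DW_cls (u : Um F₀ m) : DW D m (cls u) = cls (DU D u) := rfl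

theorem DWinv_cls (u : Um F₀ m) : DWinv D m (cls u) = cls (DUinv D u) := rfl

theorem coe_TU (u : Um F₀ m) : (((TU D u : Um F₀ m) : (FB F₀)ˣ) : FB F₀) =
    D.T ((u : (FB F₀)ˣ) : FB F₀) := rfl

theorem coe_DU (u : Um F₀ m) : (((DU D u : Um F₀ m) : (FB F₀)ˣ) : FB F₀) =
    D.dia ((u : (FB F₀)ˣ) : FB F₀) := rfl

theorem coe_DUinv (u : Um F₀ m) : (((DUinv D u : Um F₀ m) : (FB F₀)ˣ) : FB F₀) =
    D.dia.symm ((u : (FB F₀)ˣ) : FB F₀) := rfl

theorem act_comm_T (σ : GQ) : act F₀ m σ * TW D m = TW D m * act F₀ m σ := by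
  apply end_ext
  intro u
  rw [end_mul_apply, end_mul_apply, TW_cls, act_cls, act_cls, TW_cls]
  congr 1
  apply Subtype.ext
  apply Units.ext
  exact D.gal_T σ _

theorem act_comm_D (σ : GQ) : act F₀ m σ * DW D m = DW D m * act F₀ m σ := by
  apply end_ext
  intro u
  rw [end_mul_apply, end_mul_apply, DW_cls, act_cls, act_cls, DW_cls]
  congr 1
  apply Subtype.ext
  apply Units.ext
  exact (D.dia_gal σ _).symm

theorem DW_mul_DWinv : DW D m * DWinv D m = 1 := by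
  apply end_ext
  intro u
  rw [end_mul_apply, end_one_apply, DWinv_cls, DW_cls]
  congr 1
  apply Subtype.ext
  apply Units.ext
  exact D.dia.apply_symm_apply _

theorem DWinv_mul_DW : DWinv D m * DW D m = 1 := by
  apply end_ext
  intro u
  rw [end_mul_apply, end_one_apply, DW_cls, DWinv_cls]
  congr 1
  apply Subtype.ext
  apply Units.ext
  exact D.dia.symm_apply_apply _

/-- **Eichler–Shimura**: `T_ℓ = Frob ⟨ℓ⟩⁻¹ + ℓ Frob⁻¹` on `Wm` -/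
theorem T_eq (hFG : HasFG F₀) (hℓ : ℓ.Prime) (hm : ¬ ℓ ∣ m)
    {A : ValuationSubring Kb} (hA : A.LiesOverPrime ℓ) (hKL : KLS F₀ ℓ A) (hD : GoodDia A D.dia)
    {τ : GQ} (hτ : A.IsFrobeniusAt τ ℓ) :
    TW D m = act F₀ m τ * DW D m + (ℓ : AddMonoid.End (Wm F₀ m)) * act F₀ m τ⁻¹ := by
  apply end_ext
  intro u
  rw [end_add_apply, end_mul_apply, end_mul_apply, AddMonoid.End.natCast_apply, TW_cls, DW_cls,
    act_cls, act_cls, ← cls_pow, ← cls_mul, ← sub_eq_zero, sub_eq_add_neg, ← cls_inv, ← cls_mul]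
  obtain ⟨c, hc, h⟩ := cong_frob hℓ D hD hA hτ ((u : (FB F₀)ˣ) : FB F₀) (u : (FB F₀)ˣ).ne_zero
  refine cls_eq_zero_of_cong hFG hKL hm _ c hc ?_
  convert h using 2
  push_cast
  rw [coe_TU, mul_inv, mul_assoc]
  rfl

theorem ES1 (hFG : HasFG F₀) (hℓ : ℓ.Prime) (hm : ¬ ℓ ∣ m)
    {A : ValuationSubring Kb} (hA : A.LiesOverPrime ℓ) (hKL : KLS F₀ ℓ A) (hD : GoodDia A D.dia)
    {τ : GQ} (hτ : A.IsFrobeniusAt τ ℓ) :
    act F₀ m τ * act F₀ m τ * DW D m - TW D m * act F₀ m τ + (ℓ : AddMonoid.End (Wm F₀ m)) = 0 := by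
  have h1 : act F₀ m τ⁻¹ * act F₀ m τ = 1 := by rw [← map_mul, inv_mul_cancel, map_one]
  have h2 : act F₀ m τ * DW D m * act F₀ m τ = act F₀ m τ * act F₀ m τ * DW D m := by
    rw [mul_assoc, ← act_comm_D, mul_assoc]
  have h3 : (ℓ : AddMonoid.End (Wm F₀ m)) * act F₀ m τ⁻¹ * act F₀ m τ = ℓ := by
    rw [mul_assoc, h1, mul_one]
  rw [T_eq D hFG hℓ hm hA hKL hD hτ, add_mul, h2, h3]
  abel

theorem D_comm_T (hFG : HasFG F₀) (hℓ : ℓ.Prime) (hm : ¬ ℓ ∣ m)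
    {A : ValuationSubring Kb} (hA : A.LiesOverPrime ℓ) (hKL : KLS F₀ ℓ A) (hD : GoodDia A D.dia) :
    DW D m * TW D m = TW D m * DW D m := by
  obtain ⟨τ, hτ⟩ := Frob.exists_isFrobeniusAt A hℓ hA
  have h2 : DW D m * (act F₀ m τ * DW D m) = act F₀ m τ * DW D m * DW D m := by
    rw [← mul_assoc, ← act_comm_D]
  have h3 : DW D m * ((ℓ : AddMonoid.End (Wm F₀ m)) * act F₀ m τ⁻¹) =
      (ℓ : AddMonoid.End (Wm F₀ m)) * act F₀ m τ⁻¹ * DW D m := by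
    rw [← mul_assoc, ← (Nat.cast_commute ℓ (DW D m)).eq, mul_assoc, mul_assoc, act_comm_D]
  rw [T_eq D hFG hℓ hm hA hKL hD hτ, add_mul, mul_add, h2, h3]

end Hecke

end Fermat.Agent.S48.QF
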