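import Fermat.Agent.S48.M.QF.Hecke
import Fermat.Agent.ES.AlgES

/-!
# S48 / M3 (generic part 4) : the Eichler–Shimura congruence on `q`-expansions, with a diamond operator

`A ∣ ℓ`, `σ` a Frobenius lift at `A`, `D : HData F₀ E₀ ℓ`.  For `y ∈ A((q)) ∩ F` with reduction `r` such that
`dia y ∈ A((q))` has reduction `s`:
`T y ≡ r(q^ℓ) s^{(ℓ)}(q)`, `σ (dia y) ≡ s^{(ℓ)}`, `(σ⁻¹ y) ^ ℓ ≡ r(q^ℓ)`.
Hence `T u / (σ (dia u) (σ⁻¹ u) ^ ℓ) ≡ constant` for every `u ≠ 0` (`cong_frob`), provided `GoodDia A D.dia`.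
-/

set_option autoImplicit false
set_option synthInstance.maxHeartbeats 400000
set_option linter.unusedSectionVars false
set_option linter.style.haveILetI false

open HahnSeries ModularCurve AlgebraicCurve Fermat.Agent.S24 Fermat.Agent.S29 Fermat.Agent.S18
open Fermat.Agent.ES.Alg

noncomputable section

namespace Fermat.Agent.S48.QF

variable (A : ValuationSubring Kb) (F₀ : IntermediateField ℚ (LaurentSeries ℚ))

/-- `x` has coefficients in `A` and reduction `r` -/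
def IntRed (x : FB F₀) (r : LaurentSeries (kA A)) : Prop :=
  ∃ y : LaurentSeries A, coeffMap A.subtype y = (x : LaurentSeries Kb) ∧ red A y = r

variable {A F₀}

theorem IntRed.unique {x : FB F₀} {r r' : LaurentSeries (kA A)} (h : IntRed A F₀ x r)
    (h' : IntRed A F₀ x r') : r = r' := by
  obtain ⟨y, hy, rfl⟩ := h
  obtain ⟨y', hy', rfl⟩ := h'
  rw [Fermat.Agent.ES.Alg.coeffMap_subtype_injective (hy.trans hy'.symm)]

theorem IntRed.mul {x x' : FB F₀} {r r' : LaurentSeries (kA A)} (h : IntRed A F₀ x r)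
    (h' : IntRed A F₀ x' r') : IntRed A F₀ (x * x') (r * r') := by
  obtain ⟨y, hy, rfl⟩ := h
  obtain ⟨y', hy', rfl⟩ := h'
  exact ⟨y * y', by rw [map_mul, hy, hy']; rfl, map_mul _ _ _⟩

theorem IntRed.pow {x : FB F₀} {r : LaurentSeries (kA A)} (h : IntRed A F₀ x r) (n : ℕ) :
    IntRed A F₀ (x ^ n) (r ^ n) := by
  obtain ⟨y, hy, rfl⟩ := h
  exact ⟨y ^ n, by rw [map_pow, hy]; rfl, map_pow _ _ _⟩

theorem Cong.of_intRed {f x1 x2 : FB F₀} {r : LaurentSeries (kA A)} (h1 : IntRed A F₀ x1 r)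
    (h2 : IntRed A F₀ x2 r) (hr : r ≠ 0) (hf : f * x2 = x1) : Cong A F₀ f := by
  obtain ⟨y1, hy1, e1⟩ := h1
  obtain ⟨y2, hy2, e2⟩ := h2
  refine ⟨y1, y2, ?_, ?_, ?_, e1.trans e2.symm, by rw [e2]; exact hr⟩
  · show coeffMap A.subtype y1 ∈ _
    rw [hy1]; exact x1.2
  · show coeffMap A.subtype y2 ∈ _
    rw [hy2]; exact x2.2
  · rw [hy1, hy2, ← hf]; rfl

/-- Galois conjugation of integral elements -/
theorem IntRed.conj {σ : GQ} (hσ : σ ∈ A.decompositionSubgroup ℚ) (φ : kA A →+* kA A)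
    (hφ : ∀ a : A, IsLocalRing.residue A ⟨σ a, map_mem_of_decomp hσ a.2⟩ =
      φ (IsLocalRing.residue A a))
    {x : FB F₀} {r : LaurentSeries (kA A)} (h : IntRed A F₀ x r) :
    IntRed A F₀ (gal F₀ σ x) (coeffMap φ r) := by
  obtain ⟨y, hy, rfl⟩ := h
  obtain ⟨y', hy'⟩ := exists_lift (A := A) (coeffMap (σ : Kb →+* Kb) (x : LaurentSeries Kb))
    (fun n => by
      rw [← hy, coeffMap_coeff, coeffMap_coeff]
      exact map_mem_of_decomp hσ (y.coeff n).2)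
  refine ⟨y', hy', ?_⟩
  ext n
  rw [coeffMap_coeff, coeffMap_coeff, coeffMap_coeff, ← hφ]
  congr 1
  apply Subtype.ext
  have := congrArg (fun s => s.coeff n) hy'
  simp only [coeffMap_coeff] at this
  rw [← hy, coeffMap_coeff] at this
  exact this

section Frob

variable {ℓ : ℕ} [hℓ : Fact ℓ.Prime] [CharP (kA A) ℓ]

theorem IntRed.frob {σ : GQ} (hσ : A.IsFrobeniusAt σ ℓ)
    {x : FB F₀} {r : LaurentSeries (kA A)} (h : IntRed A F₀ x r) :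
    IntRed A F₀ (gal F₀ σ x) (coeffMap (frobenius (kA A) ℓ) r) := by
  refine IntRed.conj hσ.mem_decompositionSubgroup _ (fun a => ?_) h
  rw [frobenius_def, ← map_pow]
  exact residue_eq_of_sub_mem (AbstractAux.frob_sub_mem A hσ a.2)

theorem IntRed.frob_inv {σ : GQ} (hσ : A.IsFrobeniusAt σ ℓ)
    {x : FB F₀} {r : LaurentSeries (kA A)} (h : IntRed A F₀ x r) :
    ∃ z, IntRed A F₀ (gal F₀ σ⁻¹ x) z ∧ coeffMap (frobenius (kA A) ℓ) z = r := by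
  have hd : σ⁻¹ ∈ A.decompositionSubgroup ℚ := inv_mem hσ.mem_decompositionSubgroup
  obtain ⟨y, hy, rfl⟩ := h
  obtain ⟨y', hy'⟩ := exists_lift (A := A) (coeffMap ((σ⁻¹ : GQ) : Kb →+* Kb) (x : LaurentSeries Kb))
    (fun n => by
      rw [← hy, coeffMap_coeff, coeffMap_coeff]
      exact map_mem_of_decomp hd (y.coeff n).2)
  have h1 : IntRed A F₀ (gal F₀ σ⁻¹ x) (red A y') := ⟨y', hy', rfl⟩
  refine ⟨_, h1, ?_⟩
  have h2 := h1.frob hσ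
  have h3 : gal F₀ σ (gal F₀ σ⁻¹ x) = x := by
    apply Subtype.ext
    show coeffMap (σ : Kb →+* Kb) (coeffMap ((σ⁻¹ : GQ) : Kb →+* Kb) (x : LaurentSeries Kb)) = x
    rw [coeffMap_coeffMap]
    ext n
    rw [coeffMap_coeff]
    exact AlgEquiv.apply_symm_apply σ _
  rw [h3] at h2
  exact h2.unique ⟨y, hy, rfl⟩

theorem IntRed.frob_inv_pow {σ : GQ} (hσ : A.IsFrobeniusAt σ ℓ)
    {x : FB F₀} {r : LaurentSeries (kA A)} (h : IntRed A F₀ x r) :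
    haveI : NeZero ℓ := ⟨hℓ.out.ne_zero⟩
    IntRed A F₀ ((gal F₀ σ⁻¹ x) ^ ℓ) (qExpand (kA A) ℓ r) := by
  obtain ⟨z, hz, rfl⟩ := h.frob_inv hσ
  have := hz.pow ℓ
  rwa [pow_char_eq_qExpand] at this

theorem IntRed.hecke {E₀ : IntermediateField ℚ (LaurentSeries ℚ)}
    (D : haveI : NeZero ℓ := ⟨hℓ.out.ne_zero⟩; HData F₀ E₀ ℓ)
    {x : FB F₀} {r s : LaurentSeries (kA A)} (h : IntRed A F₀ x r)
    (h' : haveI : NeZero ℓ := ⟨hℓ.out.ne_zero⟩; IntRed A F₀ (D.dia x) s) :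
    haveI : NeZero ℓ := ⟨hℓ.out.ne_zero⟩
    IntRed A F₀ (D.T x) (qExpand (kA A) ℓ r * coeffMap (frobenius (kA A) ℓ) s) := by
  haveI : NeZero ℓ := ⟨hℓ.out.ne_zero⟩
  obtain ⟨y, hy, rfl⟩ := h
  obtain ⟨y', hy', rfl⟩ := h'
  obtain ⟨ζ0, hζ0⟩ := HasEnoughRootsOfUnity.exists_primitiveRoot Kb ℓ
  have hmem : ∀ n : ℕ, ζ0 ^ n ∈ A := fun n =>
    Frob.mem_of_isIntegral A ((hζ0.isIntegral hℓ.out.pos).pow n)
  have hinv : ζ0 * ζ0 ^ (ℓ - 1) = 1 := by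
    rw [← pow_succ', Nat.sub_add_cancel hℓ.out.one_le, hζ0.pow_eq_one]
  let ζA : Aˣ := ⟨⟨ζ0, by simpa using hmem 1⟩, ⟨ζ0 ^ (ℓ - 1), hmem _⟩, Subtype.ext hinv,
    Subtype.ext (by rw [mul_comm] at hinv; exact hinv)⟩
  let ζ : Kbˣ := Units.map (A.subtype : A →* Kb) ζA
  have hζ : IsPrimitiveRoot ζ ℓ := by
    rw [← IsPrimitiveRoot.coe_units_iff]
    exact hζ0
  have hζA : ζA ^ ℓ = 1 := by
    apply Units.ext
    apply Subtype.ext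
    show (ζ0 : Kb) ^ ℓ = 1
    exact hζ0.pow_eq_one
  set Z : LaurentSeries A := qExpand A ℓ (qExpand A ℓ y) * ∏ j ∈ Finset.range ℓ, twist (ζA ^ j) y'
    with hZ
  have hZ1 : coeffMap A.subtype Z = qExpand Kb ℓ (D.T x : LaurentSeries Kb) := by
    rw [D.qExpand_T hℓ.out ζ hζ x, hZ, map_mul, coeffMap_qExpand, coeffMap_qExpand, hy,
      map_prod]
    congr 1
    refine Finset.prod_congr rfl fun j _ => ?_
    rw [coeffMap_twist, hy', map_pow]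
  obtain ⟨t, ht⟩ := exists_lift (A := A) (D.T x : LaurentSeries Kb) (fun n => by
    rw [← qExpand_coeff_mul ℓ, ← hZ1, coeffMap_coeff]
    exact (Z.coeff _).2)
  refine ⟨t, ht, ?_⟩
  have ht2 : qExpand A ℓ t = Z := by
    apply Fermat.Agent.ES.Alg.coeffMap_subtype_injective
    rw [coeffMap_qExpand, ht, hZ1]
  apply qExpand_injective (R := kA A) ℓ
  rw [← coeffMap_qExpand, ht2, hZ, map_mul, map_mul, coeffMap_qExpand, coeffMap_qExpand, map_prod]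
  congr 1
  rw [← pow_char_eq_qExpand]
  have h1 : Units.map ((IsLocalRing.residue A : A →+* kA A) : A →* kA A) ζA = 1 :=
    eq_one_of_pow_char (ℓ := ℓ) (by rw [← map_pow, hζA, map_one])
  calc ∏ j ∈ Finset.range ℓ, coeffMap (IsLocalRing.residue A) (twist (ζA ^ j) y')
      = ∏ _j ∈ Finset.range ℓ, red A y' := by
        refine Finset.prod_congr rfl fun j _ => ?_
        rw [coeffMap_twist, map_pow, h1, one_pow, twist_one]
    _ = red A y' ^ ℓ := by rw [Finset.prod_const, Finset.card_range]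

end Frob

theorem IntRed.inertia {σ : GQ} (hσ : σ ∈ A.inertiaSubgroupIn ℚ)
    {x : FB F₀} {r : LaurentSeries (kA A)} (h : IntRed A F₀ x r) :
    IntRed A F₀ (gal F₀ σ x) r := by
  have hd : σ ∈ A.decompositionSubgroup ℚ := by
    obtain ⟨τ, -, rfl⟩ := Subgroup.mem_map.mp hσ
    exact τ.2
  have := IntRed.conj hd (RingHom.id _) (fun a => by
    rw [RingHom.id_apply]
    exact residue_eq_of_sub_mem (AbstractAux.inertia_sub_mem A hσ a.2)) h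
  rwa [coeffMap_id] at this

theorem exists_intRed (hFG : HasFG F₀) (A : ValuationSubring Kb) (u : FB F₀) (hu : u ≠ 0) :
    ∃ (c : Kb) (x1 x2 : FB F₀) (r1 r2 : LaurentSeries (kA A)), c ≠ 0 ∧ IntRed A F₀ x1 r1 ∧
      IntRed A F₀ x2 r2 ∧ r1 ≠ 0 ∧ r2 ≠ 0 ∧ u * x2 = algebraMap Kb (FB F₀) c * x1 := by
  obtain ⟨c, y1, y2, hc, h1, h2, hr1, hr2, h⟩ := exists_scale A hFG u hu
  exact ⟨c, ⟨_, h1⟩, ⟨_, h2⟩, _, _, hc, ⟨y1, rfl, rfl⟩, ⟨y2, rfl, rfl⟩, hr1, hr2, Subtype.ext h⟩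

theorem IntRed.ne_zero {x : FB F₀} {r : LaurentSeries (kA A)} (h : IntRed A F₀ x r) (hr : r ≠ 0) :
    x ≠ 0 := by
  rintro rfl
  obtain ⟨y, hy, rfl⟩ := h
  have : y = 0 := Fermat.Agent.ES.Alg.coeffMap_subtype_injective (by rw [hy, map_zero]; rfl)
  exact hr (by rw [this, map_zero])

/-- the diamond operator respects the Gauss valuation attached to `A` (see `goodDia_of_GU`) -/
def GoodDia (A : ValuationSubring Kb) {F₀ : IntermediateField ℚ (LaurentSeries ℚ)}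
    (δ : FB F₀ ≃ₐ[Kb] FB F₀) : Prop :=
  ∀ u : FB F₀, u ≠ 0 → ∃ (c : Kb) (x1 x2 : FB F₀) (r1 r2 s1 s2 : LaurentSeries (kA A)), c ≠ 0 ∧
    IntRed A F₀ x1 r1 ∧ IntRed A F₀ x2 r2 ∧ IntRed A F₀ (δ x1) s1 ∧ IntRed A F₀ (δ x2) s2 ∧
    r1 ≠ 0 ∧ r2 ≠ 0 ∧ s1 ≠ 0 ∧ s2 ≠ 0 ∧ u * x2 = algebraMap Kb (FB F₀) c * x1

/-- the Eichler–Shimura congruence -/
theorem cong_frob {E₀ : IntermediateField ℚ (LaurentSeries ℚ)} {ℓ : ℕ} (hℓ : ℓ.Prime) [NeZero ℓ]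
    (D : HData F₀ E₀ ℓ) (hD : GoodDia A D.dia) (hA : A.LiesOverPrime ℓ) {σ : GQ}
    (hσ : A.IsFrobeniusAt σ ℓ) (u : FB F₀) (hu : u ≠ 0) :
    ∃ c : Kb, c ≠ 0 ∧ Cong A F₀ (algebraMap Kb (FB F₀) c *
      (D.T u * (gal F₀ σ (D.dia u))⁻¹ * ((gal F₀ σ⁻¹ u) ^ ℓ)⁻¹)) := by
  haveI : Fact ℓ.Prime := ⟨hℓ⟩
  haveI : CharP (kA A) ℓ := charP_kA hℓ hA
  obtain ⟨c0, x1, x2, r1, r2, s1, s2, hc0, h1, h2, k1, k2, hr1, hr2, hs1, hs2, h⟩ := hD u hu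
  have hTa := D.T_algebraMap c0
  set n := ℓ + 1 with hn
  have hT : D.T u * D.T x2 = algebraMap Kb (FB F₀) (c0 ^ n) * D.T x1 := by
    rw [← map_mul, h, map_mul, hTa]
  have hs : gal F₀ σ (D.dia u) * gal F₀ σ (D.dia x2) =
      algebraMap Kb (FB F₀) (σ c0) * gal F₀ σ (D.dia x1) := by
    rw [← map_mul, ← map_mul, h, map_mul, map_mul, AlgEquiv.commutes, gal_algebraMap]
  have hs' : gal F₀ σ⁻¹ u * gal F₀ σ⁻¹ x2 = algebraMap Kb (FB F₀) (σ⁻¹ c0) * gal F₀ σ⁻¹ x1 := by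
    rw [← map_mul, h, map_mul, gal_algebraMap]
  have hdu : D.dia u ≠ 0 := (map_ne_zero_iff _ D.dia.injective).mpr hu
  have hsu : gal F₀ σ (D.dia u) ≠ 0 := (map_ne_zero_iff _ (gal F₀ σ).injective).mpr hdu
  have hsu' : gal F₀ σ⁻¹ u ≠ 0 := (map_ne_zero_iff _ (gal F₀ σ⁻¹).injective).mpr hu
  have hcn : algebraMap Kb (FB F₀) (c0 ^ n) ≠ 0 :=
    (map_ne_zero_iff _ (algebraMap Kb (FB F₀)).injective).mpr (pow_ne_zero _ hc0)
  have hσc : σ c0 ≠ 0 := (map_ne_zero_iff _ σ.injective).mpr hc0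
  have hσc' : σ⁻¹ c0 ≠ 0 := (map_ne_zero_iff _ (σ⁻¹ : GQ).injective).mpr hc0
  refine ⟨σ c0 * (σ⁻¹ c0) ^ ℓ * (c0 ^ n)⁻¹,
    mul_ne_zero (mul_ne_zero hσc (pow_ne_zero _ hσc')) (inv_ne_zero (pow_ne_zero _ hc0)), ?_⟩
  have hX1 := ((h1.hecke D k1).mul (k2.frob hσ)).mul (h2.frob_inv_pow hσ)
  have hX2 := ((h2.hecke D k2).mul (k1.frob hσ)).mul (h1.frob_inv_pow hσ)
  have hR : qExpand (kA A) ℓ r2 * coeffMap (frobenius (kA A) ℓ) s2 *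
      coeffMap (frobenius (kA A) ℓ) s1 * qExpand (kA A) ℓ r1 =
      qExpand (kA A) ℓ r1 * coeffMap (frobenius (kA A) ℓ) s1 *
      coeffMap (frobenius (kA A) ℓ) s2 * qExpand (kA A) ℓ r2 := by ring
  rw [hR] at hX2
  have hV : ∀ {r : LaurentSeries (kA A)}, r ≠ 0 → qExpand (kA A) ℓ r ≠ 0 := fun hr =>
    (map_ne_zero_iff _ (qExpand_injective (R := kA A) ℓ)).mpr hr
  have hF : ∀ {r : LaurentSeries (kA A)}, r ≠ 0 → coeffMap (frobenius (kA A) ℓ) r ≠ 0 := fun hr =>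
    coeffMap_ne_zero _ (frobenius (kA A) ℓ).injective hr
  refine Cong.of_intRed hX1 hX2
    (mul_ne_zero (mul_ne_zero (mul_ne_zero (hV hr1) (hF hs1)) (hF hs2)) (hV hr2)) ?_
  have e1 : (algebraMap Kb (FB F₀) (c0 ^ n))⁻¹ * (D.T u * D.T x2) = D.T x1 := by
    rw [hT, inv_mul_cancel_left₀ hcn]
  have e2 : (gal F₀ σ (D.dia u))⁻¹ * (algebraMap Kb (FB F₀) (σ c0) * gal F₀ σ (D.dia x1)) =
      gal F₀ σ (D.dia x2) := by
    rw [← hs, inv_mul_cancel_left₀ hsu]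
  have e3 : ((gal F₀ σ⁻¹ u) ^ ℓ)⁻¹ *
      ((algebraMap Kb (FB F₀) (σ⁻¹ c0)) ^ ℓ * (gal F₀ σ⁻¹ x1) ^ ℓ) = (gal F₀ σ⁻¹ x2) ^ ℓ := by
    rw [← mul_pow, ← hs', mul_pow, inv_mul_cancel_left₀ (pow_ne_zero _ hsu')]
  rw [map_mul, map_mul, map_inv₀, map_pow (algebraMap Kb (FB F₀)) (σ⁻¹ c0)]
  calc _ = ((algebraMap Kb (FB F₀) (c0 ^ n))⁻¹ * (D.T u * D.T x2)) *
        ((gal F₀ σ (D.dia u))⁻¹ * (algebraMap Kb (FB F₀) (σ c0) * gal F₀ σ (D.dia x1))) *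
        (((gal F₀ σ⁻¹ u) ^ ℓ)⁻¹ *
          ((algebraMap Kb (FB F₀) (σ⁻¹ c0)) ^ ℓ * (gal F₀ σ⁻¹ x1) ^ ℓ)) := by ring
    _ = _ := by rw [e1, e2, e3]

/-- inertia acts trivially modulo the maximal ideal -/
theorem cong_inertia (hFG : HasFG F₀) {σ : GQ} (hσ : σ ∈ A.inertiaSubgroupIn ℚ) (u : FB F₀) (hu : u ≠ 0) :
    ∃ c : Kb, c ≠ 0 ∧ Cong A F₀ (algebraMap Kb (FB F₀) c * (gal F₀ σ u * u⁻¹)) := by
  obtain ⟨c0, x1, x2, r1, r2, hc0, h1, h2, hr1, hr2, h⟩ := exists_intRed hFG A u hu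
  have hs : gal F₀ σ u * gal F₀ σ x2 = algebraMap Kb (FB F₀) (σ c0) * gal F₀ σ x1 := by
    rw [← map_mul, h, map_mul, gal_algebraMap]
  have hσc : σ c0 ≠ 0 := (map_ne_zero_iff _ σ.injective).mpr hc0
  have hσc' : algebraMap Kb (FB F₀) (σ c0) ≠ 0 :=
    (map_ne_zero_iff _ (algebraMap Kb (FB F₀)).injective).mpr hσc
  refine ⟨c0 * (σ c0)⁻¹, mul_ne_zero hc0 (inv_ne_zero hσc), ?_⟩
  have hX1 := (h1.inertia hσ).mul h2
  have hX2 := (h2.inertia hσ).mul h1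
  rw [mul_comm r2 r1] at hX2
  refine Cong.of_intRed hX1 hX2 (mul_ne_zero hr1 hr2) ?_
  have e1 : (algebraMap Kb (FB F₀) (σ c0))⁻¹ * (gal F₀ σ u * gal F₀ σ x2) = gal F₀ σ x1 := by
    rw [hs, inv_mul_cancel_left₀ hσc']
  have e2 : u⁻¹ * (algebraMap Kb (FB F₀) c0 * x1) = x2 := by
    rw [← h, inv_mul_cancel_left₀ hu]
  rw [map_mul, map_inv₀]
  calc _ = ((algebraMap Kb (FB F₀) (σ c0))⁻¹ * (gal F₀ σ u * gal F₀ σ x2)) *
        (u⁻¹ * (algebraMap Kb (FB F₀) c0 * x1)) := by ring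
    _ = _ := by rw [e1, e2]

end Fermat.Agent.S48.QF
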