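import Fermat.Agent.S48.M.QF.Gal
import Fermat.Agent.ES.AlgSeries
import Fermat.Agent.ES.AlgOrd
import Fermat.Agent.S24.Embed

/-!
# S48 / M3 (generic part 3) : the multiplicative Hecke operator attached to a Hecke datum

`F = FB F₀ ⊆ E = FB E₀ ⊆ Kb((q))`, `[E : F] = p + 1`, `q ↦ q ^ p` maps `F` into `E`,
`dia` a `Kb`-automorphism of `F` commuting with Galois (the diamond operator `⟨p⟩⁻¹`),
`w` an endomorphism of `E` with `w (a) = a(q^p)`, `w (a(q^p)) = dia a` for `a ∈ F`
(for `Γ₁(M) ∩ Γ₀(p)`: `w` is induced by `W = [[p a, b], [M p c, p d]]`, `det W = p`, `a ≡ 1`, `p d ≡ 1 mod M`).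

`HData.T u = Norm_{E/F} (u(q^p))`, and
`(T u)(x ^ p) = u(x ^ (p ^ 2)) * ∏_{j < p} (dia u)(ζ ^ j x)`   (`HData.qExpand_T`).
-/

set_option autoImplicit false
set_option synthInstance.maxHeartbeats 400000
set_option linter.unusedSectionVars false

open HahnSeries ModularCurve AlgebraicCurve Fermat.Agent.S24 Fermat.Agent.S29 Fermat.Agent.S18
open Fermat.Agent.ES.Alg

noncomputable section

namespace Fermat.Agent.S48.QF

/-- a Hecke datum at `p` -/
structure HData (F₀ E₀ : IntermediateField ℚ (LaurentSeries ℚ)) (p : ℕ) [NeZero p] where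
  le : F₀ ≤ E₀
  vm : ∀ y ∈ F₀, qExpand ℚ p y ∈ E₀
  finrank : finrankAlong Kb (incl le) = p + 1
  /-- the diamond operator -/
  dia : FB F₀ ≃ₐ[Kb] FB F₀
  dia_gal : ∀ (σ : GQ) (u : FB F₀), dia (gal F₀ σ u) = gal F₀ σ (dia u)
  /-- the Atkin–Lehner type symmetry -/
  w : FB E₀ →+* FB E₀
  w_incl : ∀ u : FB F₀, w (incl le u) = vmap p vm u
  w_vmap : ∀ u : FB F₀, w (vmap p vm u) = incl le (dia u)
  /-- a function with a simple pole at infinity (`j`) -/
  t : FB F₀
  t_tr : Transcendental Kb t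
  t_coeff : ((dia t : FB F₀) : LaurentSeries Kb).coeff (-1) ≠ 0
  yE : FB E₀
  finE : FiniteDimensional (IntermediateField.adjoin Kb {yE}) (FB E₀)

namespace HData

variable {F₀ E₀ : IntermediateField ℚ (LaurentSeries ℚ)} {p : ℕ} [NeZero p] (D : HData F₀ E₀ p)

/-- the inclusion `F → E` -/
def α : FB F₀ →ₐ[Kb] FB E₀ := incl D.le

/-- `q ↦ q ^ p` -/
def β : FB F₀ →ₐ[Kb] FB E₀ := vmap p D.vm

theorem coe_α (u : FB F₀) : (D.α u : LaurentSeries Kb) = u := coe_incl _ u

theorem coe_β (u : FB F₀) : (D.β u : LaurentSeries Kb) = qExpand Kb p (u : LaurentSeries Kb) := rfl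

theorem w_α (u : FB F₀) : D.w (D.α u) = D.β u := D.w_incl u

theorem w_β (u : FB F₀) : D.w (D.β u) = D.α (D.dia u) := D.w_vmap u

theorem finrank_α : finrankAlong Kb D.α = p + 1 := D.finrank

theorem finite_α : FiniteAlong Kb D.α := by
  have h2 : 0 < finrankAlong Kb D.α := by rw [D.finrank_α]; exact Nat.succ_pos p
  exact @Module.finite_of_finrank_pos (FB F₀) (FB E₀) _ _
    (algebraAlong D.α).toModule
    (@Module.Free.of_divisionRing (FB F₀) (FB E₀) _ _
      (algebraAlong D.α).toModule) _ h2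

/-- the norm `E → F` -/
def normα : FB E₀ →* FB F₀ :=
  letI := algebraAlong D.α
  Algebra.norm (FB F₀)

/-- the multiplicative Hecke operator `u ↦ Norm_{E/F} (u(q^p))` -/
def T : FB F₀ →* FB F₀ := D.normα.comp ((D.β : FB F₀ →+* FB E₀) : FB F₀ →* FB E₀)

theorem T_apply (u : FB F₀) : D.T u = D.normα (D.β u) := rfl

theorem gal_α (σ : GQ) (u : FB F₀) : gal E₀ σ (D.α u) = D.α (gal F₀ σ u) := gal_incl _ σ u

theorem gal_β (σ : GQ) (u : FB F₀) : gal E₀ σ (D.β u) = D.β (gal F₀ σ u) := gal_vmap p _ σ u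

theorem gal_normα (σ : GQ) (x : FB E₀) : gal F₀ σ (D.normα x) = D.normα (gal E₀ σ x) := by
  let _ := algebraAlong D.α
  have h := Algebra.norm_eq_of_equiv_equiv (gal F₀ σ) (gal E₀ σ)
    (RingHom.ext fun u => (D.gal_α σ u).symm) x
  show gal F₀ σ (Algebra.norm (FB F₀) x) = Algebra.norm (FB F₀) (gal E₀ σ x)
  rw [h, RingEquiv.apply_symm_apply]

theorem gal_T (σ : GQ) (u : FB F₀) : gal F₀ σ (D.T u) = D.T (gal F₀ σ u) := by
  rw [T_apply, T_apply, gal_normα, gal_β]

theorem integral_β : D.β.toRingHom.IsIntegral := by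
  have hf : Transcendental Kb (D.β D.t) := fun h =>
    D.t_tr ((isAlgebraic_algHom_iff D.β D.β.injective).mp h)
  exact OrdAux.isIntegral_of_transcendental D.β D.t
    (Fermat.Agent.S24.Diff.finiteDimensional_adjoin_of_transcendental D.yE D.finE _ hf)

theorem PDiv_T {m : ℕ} {u : FB F₀} (hu : PDiv Kb (FB F₀) m u) : PDiv Kb (FB F₀) m (D.T u) := by
  have h1 : PDiv Kb (FB E₀) m (D.β u) := by
    let _ := algebraAlong D.β
    have := isScalarTower_along D.β
    have := isIntegral_along D.β D.integral_β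
    exact PDiv.algebraMap (F := FB F₀) (F' := FB E₀) hu
  let _ := algebraAlong D.α
  have := isScalarTower_along D.α
  have : FiniteDimensional (FB F₀) (FB E₀) := D.finite_α
  have : CharZero (FB F₀) :=
    charZero_of_injective_algebraMap (Algebra.algebraMap (R := Kb) (A := FB F₀)).injective
  exact PDiv.norm (F := FB F₀) (F' := FB E₀) h1

theorem PDiv_dia {m : ℕ} {u : FB F₀} (hu : PDiv Kb (FB F₀) m u) :
    PDiv Kb (FB F₀) m (D.dia u) := by
  refine ⟨by simpa using hu.1, fun v => ?_⟩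
  set g := SemilinearAut.ofAlgAut D.dia with hg
  have h := SemilinearAut.ord_smul g (g⁻¹ • v) u
  rw [smul_inv_smul] at h
  have h2 : g • u = D.dia u := rfl
  rw [← h2, h]
  exact hu.2 _

theorem PDiv_dia_symm {m : ℕ} {u : FB F₀} (hu : PDiv Kb (FB F₀) m u) :
    PDiv Kb (FB F₀) m (D.dia.symm u) := by
  refine ⟨by simpa using hu.1, fun v => ?_⟩
  set g := SemilinearAut.ofAlgAut D.dia.symm with hg
  have h := SemilinearAut.ord_smul g (g⁻¹ • v) u
  rw [smul_inv_smul] at h
  have h2 : g • u = D.dia.symm u := rfl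
  rw [← h2, h]
  exact hu.2 _

theorem T_algebraMap (c : Kb) :
    D.T (algebraMap Kb (FB F₀) c) = algebraMap Kb (FB F₀) (c ^ (p + 1)) := by
  letI := algebraAlong D.α
  rw [T_apply, AlgHom.commutes, ← D.α.commutes c, map_pow, ← D.finrank_α]
  exact Algebra.norm_algebraMap (S := FB E₀) (algebraMap Kb (FB F₀) c)

/-- the inclusion in the field of Laurent series -/
def incE (E₀ : IntermediateField ℚ (LaurentSeries ℚ)) : FB E₀ →+* LaurentSeries Kb :=
  (laurentBaseChange Kb E₀).val.toRingHom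

theorem incE_apply (x : FB E₀) : incE E₀ x = (x : LaurentSeries Kb) := rfl

theorem qExpand_T (hp : p.Prime) (ζ : Kbˣ) (hζ : IsPrimitiveRoot ζ p) (u : FB F₀) :
    qExpand Kb p (D.T u : LaurentSeries Kb) =
      qExpand Kb p (qExpand Kb p (u : LaurentSeries Kb)) *
        ∏ j ∈ Finset.range p, twist (ζ ^ j) ((D.dia u : FB F₀) : LaurentSeries Kb) := by
  letI := algebraAlong D.α
  haveI : FiniteDimensional (FB F₀) (FB E₀) := D.finite_α
  haveI : Algebra.IsSeparable (FB F₀) (FB E₀) := inferInstance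
  let σ : Option (Fin p) → FB E₀ →+* LaurentSeries Kb := fun o =>
    match o with
    | none => (qExpand Kb p).comp (incE E₀)
    | some j => (twist (ζ ^ (j : ℕ))).comp ((incE E₀).comp D.w)
  have hnone : ∀ x, σ none x = qExpand Kb p (x : LaurentSeries Kb) := fun _ => rfl
  have hsome : ∀ (j : Fin p) x, σ (some j) x = twist (ζ ^ (j : ℕ)) (D.w x : LaurentSeries Kb) :=
    fun _ _ => rfl
  have hα : ∀ (o : Option (Fin p)) (a : FB F₀),
      σ o (D.α a) = qExpand Kb p (a : LaurentSeries Kb) := by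
    intro o a
    cases o with
    | none => rw [hnone, coe_α]
    | some j =>
      rw [hsome, w_α, coe_β]
      exact twist_qExpand p _ (by rw [← pow_mul, mul_comm, pow_mul, hζ.pow_eq_one, one_pow]) _
  have hβ : ∀ (j : Fin p) (a : FB F₀),
      σ (some j) (D.β a) = twist (ζ ^ (j : ℕ)) ((D.dia a : FB F₀) : LaurentSeries Kb) := by
    intro j a
    rw [hsome, w_β, coe_α]
  have hinj : Function.Injective σ := by
    have hl1 : ¬ (p : ℤ) ∣ -1 := by
      intro hd
      have := Int.natAbs_dvd_natAbs.mpr hd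
      simp at this
      exact hp.one_lt.ne' this
    have c0 : (σ none (D.β D.t)).coeff (-1) = 0 := by
      rw [hnone]
      exact qExpand_coeff_of_not_dvd p _ hl1
    have c1 : ∀ j : Fin p, (σ (some j) (D.β D.t)).coeff (-1) =
        (((ζ ^ (j : ℕ)) ^ (-1 : ℤ) : Kbˣ) : Kb) *
          ((D.dia D.t : FB F₀) : LaurentSeries Kb).coeff (-1) := by
      intro j
      rw [hβ, twist_coeff]
    intro o o' h
    have h' := congrArg (fun f : FB E₀ →+* LaurentSeries Kb => (f (D.β D.t)).coeff (-1)) h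
    cases o with
    | none =>
      cases o' with
      | none => rfl
      | some j =>
        rw [c0, c1] at h'
        exact absurd h'.symm (mul_ne_zero (Units.ne_zero _) D.t_coeff)
    | some i =>
      cases o' with
      | none =>
        rw [c0, c1] at h'
        exact absurd h' (mul_ne_zero (Units.ne_zero _) D.t_coeff)
      | some j =>
        rw [c1, c1] at h'
        have h2 : ζ ^ (i : ℕ) = ζ ^ (j : ℕ) := by
          have := Units.ext (mul_right_cancel₀ D.t_coeff h')
          simpa using this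
        have := hζ.pow_inj i.2 j.2 h2
        rw [Fin.ext this]
  have hcard : Fintype.card (Option (Fin p)) = Module.finrank (FB F₀) (FB E₀) := by
    rw [Fintype.card_option, Fintype.card_fin]
    exact D.finrank_α.symm
  have key := norm_eq_prod_of_card (E := FB F₀) (F := FB E₀) σ hinj hcard
    (fun i j a => by
      show σ i (D.α a) = σ j (D.α a)
      rw [hα, hα]) none (D.β u)
  have e1 : σ none (algebraMap (FB F₀) (FB E₀) (Algebra.norm (FB F₀) (D.β u))) =
      qExpand Kb p (D.T u : LaurentSeries Kb) := hα none _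
  rw [← e1, key, Fintype.prod_option, hnone, coe_β]
  congr 1
  rw [Finset.prod_range]
  exact Finset.prod_congr rfl fun j _ => hβ j u

end HData

end Fermat.Agent.S48.QF
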