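import Fermat.Agent.ES.AlgKL

/-!
# S48 / M3 (generic part 1) : `q`-fields, congruence to `1`, (KL) for a general exponent

Everything in `ES/AlgKL.lean` for an ARBITRARY subfield `F₀ ⊆ ℚ((q))` instead of the function field of `X₀(N)`:
`FB F₀ = laurentBaseChange Kb F₀ ⊆ Kb((q))`.

* `HasFG F₀` : every element of `FB F₀` is a quotient of two elements whose coefficients lie in a finitely
  generated group (`hasFG_of_adjoin`: true when `F₀` is generated over `ℚ` by series with integer coefficients).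
* `KLS F₀ ℓ A` : the statement (KL') for `FB F₀` (same shape as `S18.KLStatement`).
* `Cong A F₀ f`, `exists_scale`, `exists_root_cong`, `KL_general` : as in `ES/AlgKL.lean`.
-/

set_option autoImplicit false
set_option synthInstance.maxHeartbeats 400000
set_option linter.unusedSectionVars false

open HahnSeries ModularCurve AlgebraicCurve Fermat.Agent.S24 Fermat.Agent.S29 Fermat.Agent.S18
open Fermat.Agent.ES.Alg Fermat.Agent.ES.Alg.KLAux

noncomputable section

namespace Fermat.Agent.S48.QF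

/-- the base change to `Kb` of a subfield of `ℚ((q))` -/
abbrev FB (F₀ : IntermediateField ℚ (LaurentSeries ℚ)) : Type := ↥(laurentBaseChange Kb F₀)

/-- every element is a quotient of elements with coefficients in a finitely generated group -/
def HasFG (F₀ : IntermediateField ℚ (LaurentSeries ℚ)) : Prop :=
  ∀ x : FB F₀, ∃ r s : FB F₀, s ≠ 0 ∧ FGCoeff (r : LaurentSeries Kb) ∧
    FGCoeff (s : LaurentSeries Kb) ∧ x * s = r

/-- the statement (KL') for `FB F₀` -/
def KLS (F₀ : IntermediateField ℚ (LaurentSeries ℚ)) (ℓ : ℕ) (A : ValuationSubring Kb) : Prop :=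
  ∀ p : ℕ, p.Prime → p ≠ ℓ → ∀ f : FB F₀, f ≠ 0 →
    (∀ P : Place Kb (FB F₀), (p : ℤ) ∣ P.ord f) →
    ∀ y1 y2 : LaurentSeries A,
      coeffMap A.subtype y1 ∈ laurentBaseChange Kb F₀ →
      coeffMap A.subtype y2 ∈ laurentBaseChange Kb F₀ →
      (f : LaurentSeries Kb) * coeffMap A.subtype y2 = coeffMap A.subtype y1 →
      coeffMap (IsLocalRing.residue A) y1 = coeffMap (IsLocalRing.residue A) y2 →
      coeffMap (IsLocalRing.residue A) y2 ≠ 0 → ∃ g : FB F₀, g ^ p = f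


variable (A : ValuationSubring Kb) (F₀ : IntermediateField ℚ (LaurentSeries ℚ))

/-- `y ∈ A((q)) ∩ F_N` -/
def MemF (y : LaurentSeries A) : Prop := coeffMap A.subtype y ∈ laurentBaseChange Kb F₀

/-- `f ≡ 1` modulo the maximal ideal of `A` -/
def Cong (f : FB F₀) : Prop :=
  ∃ y1 y2 : LaurentSeries A, MemF A F₀ y1 ∧ MemF A F₀ y2 ∧
    (f : LaurentSeries Kb) * coeffMap A.subtype y2 = coeffMap A.subtype y1 ∧
    red A y1 = red A y2 ∧ red A y2 ≠ 0

variable {A F₀}

theorem Cong.ne_zero {f : FB F₀} (hf : Cong A F₀ f) : f ≠ 0 := by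
  obtain ⟨y1, y2, -, -, h, h12, h2⟩ := hf
  rintro rfl
  rw [← h12] at h2
  apply ne_zero_of_red_ne_zero h2
  rw [← h]
  simp

theorem Cong.one : Cong A F₀ 1 := by
  refine ⟨1, 1, ?_, ?_, by simp, rfl, ?_⟩
  · show coeffMap A.subtype 1 ∈ _
    rw [map_one]; exact one_mem _
  · show coeffMap A.subtype 1 ∈ _
    rw [map_one]; exact one_mem _
  · rw [map_one]; exact one_ne_zero

theorem Cong.mul {f g : FB F₀} (hf : Cong A F₀ f) (hg : Cong A F₀ g) : Cong A F₀ (f * g) := by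
  obtain ⟨y1, y2, m1, m2, h, h12, h2⟩ := hf
  obtain ⟨z1, z2, n1, n2, h', h12', h2'⟩ := hg
  refine ⟨y1 * z1, y2 * z2, ?_, ?_, ?_, ?_, ?_⟩
  · show coeffMap A.subtype (y1 * z1) ∈ _
    rw [map_mul]; exact mul_mem m1 n1
  · show coeffMap A.subtype (y2 * z2) ∈ _
    rw [map_mul]; exact mul_mem m2 n2
  · rw [map_mul, map_mul, ← h, ← h']
    push_cast
    ring
  · rw [map_mul, map_mul, h12, h12']
  · rw [map_mul]; exact mul_ne_zero h2 h2'

theorem Cong.inv {f : FB F₀} (hf : Cong A F₀ f) : Cong A F₀ f⁻¹ := by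
  have hf0 := hf.ne_zero
  obtain ⟨y1, y2, m1, m2, h, h12, h2⟩ := hf
  refine ⟨y2, y1, m2, m1, ?_, h12.symm, h12 ▸ h2⟩
  have hf0' : (f : LaurentSeries Kb) ≠ 0 := fun h0 => hf0 (Subtype.ext h0)
  rw [← h]
  push_cast
  rw [← mul_assoc, inv_mul_cancel₀ hf0', one_mul]

theorem Cong.pow {f : FB F₀} (hf : Cong A F₀ f) (n : ℕ) : Cong A F₀ (f ^ n) := by
  induction n with
  | zero => rw [pow_zero]; exact Cong.one
  | succ n ih => rw [pow_succ]; exact ih.mul hf

variable (A)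

/-- the Gauss norm is attained -/
theorem exists_scale (hFG : HasFG F₀) (x : FB F₀) (hx : x ≠ 0) :
    ∃ (c : Kb) (y1 y2 : LaurentSeries A), c ≠ 0 ∧ MemF A F₀ y1 ∧ MemF A F₀ y2 ∧
      red A y1 ≠ 0 ∧ red A y2 ≠ 0 ∧
      (x : LaurentSeries Kb) * coeffMap A.subtype y2 =
        algebraMap Kb (LaurentSeries Kb) c * coeffMap A.subtype y1 := by
  obtain ⟨r, s, hs0, hr, hs, hrs⟩ := hFG x
  have hr0 : r ≠ 0 := by
    rintro rfl
    exact (mul_ne_zero hx hs0) hrs
  have hs0' : (s : LaurentSeries Kb) ≠ 0 := fun h0 => hs0 (Subtype.ext h0)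
  have hr0' : (r : LaurentSeries Kb) ≠ 0 := fun h0 => hr0 (Subtype.ext h0)
  obtain ⟨Λr, hΛr, hr1⟩ := hr
  obtain ⟨Λs, hΛs, hs1⟩ := hs
  obtain ⟨cr, yr, hcr, hyr, er⟩ := exists_scale_of_fg A _ hr0' Λr hΛr hr1
  obtain ⟨cs, ys, hcs, hys, es⟩ := exists_scale_of_fg A _ hs0' Λs hΛs hs1
  have hmem : ∀ (c : Kb) (t : FB F₀) (y : LaurentSeries A), c ≠ 0 →
      (t : LaurentSeries Kb) = algebraMap Kb (LaurentSeries Kb) c * coeffMap A.subtype y →
      MemF A F₀ y := by
    intro c t y hc e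
    have h1 : coeffMap A.subtype y = algebraMap Kb (LaurentSeries Kb) c⁻¹ * (t : LaurentSeries Kb) := by
      rw [e, ← mul_assoc, ← map_mul, inv_mul_cancel₀ hc, map_one, one_mul]
    show coeffMap A.subtype y ∈ _
    rw [h1]
    exact mul_mem ((laurentBaseChange Kb F₀).algebraMap_mem _) t.2
  refine ⟨cr / cs, yr, ys, div_ne_zero hcr hcs, hmem cr r yr hcr er, hmem cs s ys hcs es, hyr, hys, ?_⟩
  have h2 : (x : LaurentSeries Kb) * (s : LaurentSeries Kb) = (r : LaurentSeries Kb) :=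
    congrArg Subtype.val hrs
  have h3 : algebraMap Kb (LaurentSeries Kb) cs ≠ 0 := by
    rw [Ne, map_eq_zero]; exact hcs
  apply mul_left_cancel₀ h3
  calc algebraMap Kb (LaurentSeries Kb) cs * ((x : LaurentSeries Kb) * coeffMap A.subtype ys)
      = (x : LaurentSeries Kb) * (s : LaurentSeries Kb) := by rw [es]; ring
    _ = algebraMap Kb (LaurentSeries Kb) cr * coeffMap A.subtype yr := by rw [h2, er]
    _ = algebraMap Kb (LaurentSeries Kb) cs *
        (algebraMap Kb (LaurentSeries Kb) (cr / cs) * coeffMap A.subtype yr) := by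
      rw [← mul_assoc, ← map_mul, mul_div_cancel₀ _ hcs]

variable {A}

theorem exists_root_cong (hFG : HasFG F₀) {p : ℕ} (hp : p.Prime) {f g : FB F₀} (hf : Cong A F₀ f) (hg : g ^ p = f) :
    ∃ g' : FB F₀, g' ^ p = f ∧ Cong A F₀ g' := by
  have hf0 := hf.ne_zero
  have hg0 : g ≠ 0 := by
    rintro rfl
    rw [zero_pow hp.ne_zero] at hg
    exact hf0 hg.symm
  obtain ⟨y1, y2, m1, m2, h, h12, h2⟩ := hf
  obtain ⟨c, G1, G2, hc, n1, n2, r1, r2, hG⟩ := exists_scale A hFG g hg0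
  have key : algebraMap Kb (LaurentSeries Kb) (c ^ p) * coeffMap A.subtype (G1 ^ p * y2)
      = coeffMap A.subtype (G2 ^ p * y1) := by
    rw [map_mul, map_mul, map_pow, map_pow, map_pow, ← h, ← hg]
    push_cast
    calc algebraMap Kb (LaurentSeries Kb) c ^ p * (coeffMap A.subtype G1 ^ p * coeffMap A.subtype y2)
        = (algebraMap Kb (LaurentSeries Kb) c * coeffMap A.subtype G1) ^ p * coeffMap A.subtype y2 := by
          ring
      _ = ((g : LaurentSeries Kb) * coeffMap A.subtype G2) ^ p * coeffMap A.subtype y2 := by rw [hG]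
      _ = _ := by ring
  have hU : red A (G1 ^ p * y2) ≠ 0 := by
    rw [map_mul, map_pow]; exact mul_ne_zero (pow_ne_zero _ r1) h2
  have hV : red A (G2 ^ p * y1) ≠ 0 := by
    rw [map_mul, map_pow, h12]; exact mul_ne_zero (pow_ne_zero _ r2) h2
  have hcA : c ∈ A := mem_of_pow_mem hp.ne_zero (mem_of_mul_eq hU key)
  have hcA' : c⁻¹ ∈ A := by
    refine mem_of_pow_mem hp.ne_zero (mem_of_mul_eq hV (V := G1 ^ p * y2) ?_)
    rw [← key, ← mul_assoc, ← map_mul, inv_pow, inv_mul_cancel₀ (pow_ne_zero _ hc), map_one, one_mul]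
  -- absorb `c`
  set G1' : LaurentSeries A := HahnSeries.single 0 (⟨c, hcA⟩ : A) * G1 with hG1'
  have eG1' : coeffMap A.subtype G1' = algebraMap Kb (LaurentSeries Kb) c * coeffMap A.subtype G1 := by
    rw [hG1', map_mul, coeffMap_subtype_single]
  have hG' : (g : LaurentSeries Kb) * coeffMap A.subtype G2 = coeffMap A.subtype G1' := by
    rw [eG1', hG]
  have hpow : G1' ^ p * y2 = G2 ^ p * y1 := by
    apply coeffMap_subtype_injective A
    rw [← key, map_mul, map_mul, map_pow, map_pow, eG1', map_pow]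
    ring
  have hredpow : red A G1' ^ p = red A G2 ^ p := by
    have h3 := congrArg (red A) hpow
    rw [map_mul, map_mul, map_pow, map_pow, h12] at h3
    exact mul_right_cancel₀ h2 h3
  -- roots of unity
  have : NeZero p := ⟨hp.ne_zero⟩
  obtain ⟨ζ, hζ⟩ := HasEnoughRootsOfUnity.exists_primitiveRoot Kb p
  have hζA : ζ ∈ A := mem_of_pow_mem (p := p) hp.ne_zero (by rw [hζ.pow_eq_one]; exact A.one_mem)
  have hζ' : IsPrimitiveRoot (⟨ζ, hζA⟩ : A) p :=
    IsPrimitiveRoot.of_map_of_injective (f := A.subtype) hζ Subtype.val_injective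
  have hprod := Polynomial.X_pow_sub_one_eq_prod hp.pos hζ'
  let φ : A →+* LaurentSeries (IsLocalRing.ResidueField A) :=
    (algebraMap (IsLocalRing.ResidueField A) (LaurentSeries (IsLocalRing.ResidueField A))).comp
      (IsLocalRing.residue A)
  have hev := congrArg (Polynomial.eval₂ φ (red A G1' / red A G2)) hprod
  rw [Polynomial.eval₂_sub, Polynomial.eval₂_pow, Polynomial.eval₂_X, Polynomial.eval₂_one, div_pow,
    hredpow, div_self (pow_ne_zero _ r2), sub_self, Polynomial.eval₂_finsetProd] at hev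
  obtain ⟨z, hz, hz0⟩ := Finset.prod_eq_zero_iff.mp hev.symm
  rw [Polynomial.eval₂_sub, Polynomial.eval₂_X, Polynomial.eval₂_C, sub_eq_zero,
    div_eq_iff r2] at hz0
  rw [Polynomial.mem_nthRootsFinset hp.pos] at hz
  have hz' : ((z : A) : Kb) ^ p = 1 := by
    have := congrArg Subtype.val hz
    simpa using this
  have hz1 : z ^ (p - 1) * z = 1 := by
    rw [← pow_succ, Nat.sub_add_cancel hp.one_le, hz]
  have hz1' : ((z : A) : Kb) ^ (p - 1) * ((z : A) : Kb) = 1 := by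
    rw [← pow_succ, Nat.sub_add_cancel hp.one_le, hz']
  refine ⟨algebraMap Kb (FB F₀) (((z : A) : Kb) ^ (p - 1)) * g, ?_,
    HahnSeries.single 0 (z ^ (p - 1)) * G1', G2, ?_, n2, ?_, ?_, r2⟩
  · rw [mul_pow, hg, ← map_pow, ← pow_mul, mul_comm (p - 1) p, pow_mul, hz', one_pow, map_one,
      one_mul]
  · show coeffMap A.subtype _ ∈ _
    rw [map_mul, coeffMap_subtype_single, eG1']
    exact mul_mem ((laurentBaseChange Kb F₀).algebraMap_mem _)
      (mul_mem ((laurentBaseChange Kb F₀).algebraMap_mem _) n1)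
  · rw [map_mul, coeffMap_subtype_single, ← hG']
    push_cast
    rw [mul_assoc]
  · rw [map_mul, red_single, hz0]
    show φ (z ^ (p - 1)) * (φ z * _) = _
    rw [← mul_assoc, ← map_mul, hz1, map_one, one_mul]

theorem KL_aux (hFG : HasFG F₀) {ℓ : ℕ} (hKL : KLS F₀ ℓ A) (m : ℕ) : ¬ ℓ ∣ m → ∀ f : FB F₀,
    PDiv Kb (FB F₀) m f → Cong A F₀ f → ∃ g : FB F₀, g ^ m = f := by
  induction m using induction_on_primes with
  | zero => intro h; exact absurd (dvd_zero ℓ) h
  | one => intro _ f _ _; exact ⟨f, pow_one f⟩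
  | prime_mul p a hp ih =>
    intro hm f hf hcf
    have hpℓ : p ≠ ℓ := by
      rintro rfl
      exact hm (dvd_mul_right _ _)
    have ha : ¬ ℓ ∣ a := fun h => hm (h.mul_left p)
    obtain ⟨y1, y2, m1, m2, h, h12, h2⟩ := id hcf
    obtain ⟨g0, hg0⟩ := hKL p hp hpℓ f hf.1
      (fun P => (Dvd.intro _ (by push_cast; rfl)).trans (hf.2 P)) y1 y2 m1 m2 h h12 h2
    obtain ⟨g1, hg1, hcg1⟩ := exists_root_cong hFG hp hcf hg0
    have hdiv : PDiv Kb (FB F₀) a g1 := by
      refine ⟨hcg1.ne_zero, fun P => ?_⟩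
      have h3 := hf.2 P
      rw [← hg1, ord_pow'] at h3
      push_cast at h3
      exact (mul_dvd_mul_iff_left (by exact_mod_cast hp.ne_zero)).mp h3
    obtain ⟨g, hg⟩ := ih ha g1 hdiv hcg1
    exact ⟨g, by rw [mul_comm, pow_mul, hg, hg1]⟩

/-- (KL) for a general exponent prime to `ℓ`, up to a constant -/
theorem KL_general (hFG : HasFG F₀) {ℓ : ℕ} (hKL : KLS F₀ ℓ A) (m : ℕ) (hm : ¬ ℓ ∣ m) (f : FB F₀)
    (hf : PDiv Kb (FB F₀) m f) (c : Kb) (hc : c ≠ 0)
    (hcf : Cong A F₀ (algebraMap Kb (FB F₀) c * f)) : ∃ g : FB F₀, g ^ m = f := by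
  have hm0 : m ≠ 0 := by
    rintro rfl
    exact hm (dvd_zero ℓ)
  have hc' : algebraMap Kb (FB F₀) c ≠ 0 := by
    rw [Ne, map_eq_zero]; exact hc
  have hdiv : PDiv Kb (FB F₀) m (algebraMap Kb (FB F₀) c * f) := by
    refine ⟨mul_ne_zero hc' hf.1, fun P => ?_⟩
    rw [P.ord_mul hc' hf.1, Diff.ord_algebraMap, zero_add]
    exact hf.2 P
  obtain ⟨g, hg⟩ := KL_aux hFG hKL m hm _ hdiv hcf
  obtain ⟨e, he⟩ := IsAlgClosed.exists_pow_nat_eq c⁻¹ (Nat.pos_of_ne_zero hm0)
  refine ⟨algebraMap Kb (FB F₀) e * g, ?_⟩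
  rw [mul_pow, hg, ← map_pow, he, ← mul_assoc, ← map_mul, inv_mul_cancel₀ hc, map_one, one_mul]

end Fermat.Agent.S48.QF
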